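/-
Multipliers of meromorphic functions on the upper half plane: basic definitions.

Functions are `f : ℂ → ℂ`, considered on `ℍₒ = {z | 0 < z.im}`, with Mathlib's
`MeromorphicOn` / `MeromorphicNFOn` / `meromorphicOrderAt`.
-/
import Mathlib.Analysis.Meromorphic.NormalForm
import Mathlib.Analysis.Complex.UpperHalfPlane.MoebiusAction
import Mathlib.Analysis.Complex.UpperHalfPlane.FunctionsBoundedAtInfty
import Mathlib.Analysis.Complex.UpperHalfPlane.Topology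
import Mathlib.Analysis.Complex.Periodic
import Mathlib.Analysis.Complex.CauchyIntegral

set_option autoImplicit false

open scoped MatrixGroups Topology
open UpperHalfPlane Filter

namespace Fermat.Agent.Multiplier

/-- The upper half plane as a subset of `ℂ`. -/
abbrev H : Set ℂ := {z : ℂ | 0 < z.im}

/-- The Moebius action of `γ ∈ SL(2, ℤ)` as a function `ℂ → ℂ`. -/
noncomputable def act (γ : SL(2, ℤ)) (z : ℂ) : ℂ :=
  ((γ 0 0 : ℂ) * z + (γ 0 1 : ℂ)) / ((γ 1 0 : ℂ) * z + (γ 1 1 : ℂ))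

/-- The automorphy factor `c z + d`. -/
def jfac (γ : SL(2, ℤ)) (z : ℂ) : ℂ := (γ 1 0 : ℂ) * z + (γ 1 1 : ℂ)

theorem act_eq_div (γ : SL(2, ℤ)) (z : ℂ) :
    act γ z = ((γ 0 0 : ℂ) * z + (γ 0 1 : ℂ)) / jfac γ z := rfl

theorem coe_smul_eq_act (γ : SL(2, ℤ)) (τ : ℍ) : ((γ • τ : ℍ) : ℂ) = act γ τ := by
  rw [coe_specialLinearGroup_apply]
  simp [act]

theorem isOpen_H : IsOpen H := isOpen_upperHalfPlaneSet

theorem convex_H : Convex ℝ H := convex_halfSpace_im_gt 0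

theorem isPreconnected_H : IsPreconnected H := convex_H.isPreconnected

theorem I_mem_H : Complex.I ∈ H := by simp [H]

theorem isConnected_H : IsConnected H := ⟨⟨_, I_mem_H⟩, isPreconnected_H⟩

theorem act_mem {γ : SL(2, ℤ)} {z : ℂ} (hz : z ∈ H) : act γ z ∈ H := by
  have := (γ • (⟨z, hz⟩ : ℍ)).im_pos
  rwa [← UpperHalfPlane.coe_im, coe_smul_eq_act] at this

theorem jfac_ne_zero (γ : SL(2, ℤ)) {z : ℂ} (hz : z ∈ H) : jfac γ z ≠ 0 := by
  have h := UpperHalfPlane.denom_ne_zero (γ : GL (Fin 2) ℝ) ⟨z, hz⟩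
  rw [ModularGroup.denom_apply] at h
  simpa [jfac] using h

theorem act_one (z : ℂ) : act 1 z = z := by simp [act]

theorem act_neg (γ : SL(2, ℤ)) (z : ℂ) : act (-γ) z = act γ z := by
  simp only [act, Matrix.SpecialLinearGroup.coe_neg, Matrix.neg_apply, Int.cast_neg]
  rw [← neg_div_neg_eq]
  ring_nf

theorem act_mul (γ δ : SL(2, ℤ)) {z : ℂ} (hz : z ∈ H) :
    act (γ * δ) z = act γ (act δ z) := by
  have h := congrArg (fun τ : ℍ => (τ : ℂ)) (mul_smul γ δ (⟨z, hz⟩ : ℍ))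
  simpa only [coe_smul_eq_act] using h

theorem jfac_mul (γ δ : SL(2, ℤ)) {z : ℂ} (hz : z ∈ H) :
    jfac (γ * δ) z = jfac γ (act δ z) * jfac δ z := by
  have h := jfac_ne_zero δ hz
  simp only [jfac, act, Matrix.SpecialLinearGroup.coe_mul, Matrix.mul_apply, Fin.sum_univ_two]
    at h ⊢
  push_cast
  field_simp
  ring

theorem jfac_neg (γ : SL(2, ℤ)) (z : ℂ) : jfac (-γ) z = -jfac γ z := by
  simp only [jfac, Matrix.SpecialLinearGroup.coe_neg, Matrix.neg_apply, Int.cast_neg]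
  ring

theorem jfac_one (z : ℂ) : jfac 1 z = 1 := by simp [jfac]

theorem act_act_inv (γ : SL(2, ℤ)) {z : ℂ} (hz : z ∈ H) : act γ (act γ⁻¹ z) = z := by
  rw [← act_mul _ _ hz, mul_inv_cancel, act_one]

theorem act_inv_act (γ : SL(2, ℤ)) {z : ℂ} (hz : z ∈ H) : act γ⁻¹ (act γ z) = z := by
  rw [← act_mul _ _ hz, inv_mul_cancel, act_one]

theorem det_eq_one (γ : SL(2, ℤ)) :
    (γ 0 0 : ℂ) * (γ 1 1 : ℂ) - (γ 0 1 : ℂ) * (γ 1 0 : ℂ) = 1 := by
  have h := γ.2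
  rw [Matrix.det_fin_two] at h
  exact_mod_cast h

theorem hasDerivAt_act (γ : SL(2, ℤ)) {z : ℂ} (hz : z ∈ H) :
    HasDerivAt (act γ) ((jfac γ z ^ 2)⁻¹) z := by
  have hj := jfac_ne_zero γ hz
  have h1 : HasDerivAt (fun w : ℂ => (γ 0 0 : ℂ) * w + (γ 0 1 : ℂ)) (γ 0 0 : ℂ) z := by
    simpa using ((hasDerivAt_id z).const_mul (γ 0 0 : ℂ)).add_const (γ 0 1 : ℂ)
  have h2 : HasDerivAt (fun w => jfac γ w) (γ 1 0 : ℂ) z := by
    simpa only [jfac, mul_one, id] using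
      ((hasDerivAt_id z).const_mul (γ 1 0 : ℂ)).add_const (γ 1 1 : ℂ)
  refine (h1.div h2 hj).congr_deriv ?_
  rw [inv_eq_one_div]
  congr 1
  simp only [jfac]
  linear_combination det_eq_one γ

theorem analyticAt_act (γ : SL(2, ℤ)) {z : ℂ} (hz : z ∈ H) : AnalyticAt ℂ (act γ) z := by
  have hj := jfac_ne_zero γ hz
  unfold act jfac at *
  fun_prop (disch := assumption)

theorem deriv_act_ne_zero (γ : SL(2, ℤ)) {z : ℂ} (hz : z ∈ H) : deriv (act γ) z ≠ 0 := by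
  rw [(hasDerivAt_act γ hz).deriv]
  exact inv_ne_zero (pow_ne_zero _ (jfac_ne_zero γ hz))

/-- `act γ` maps punctured neighbourhoods to punctured neighbourhoods. -/
theorem tendsto_act_nhdsNE (γ : SL(2, ℤ)) {z : ℂ} (hz : z ∈ H) :
    Tendsto (act γ) (𝓝[≠] z) (𝓝[≠] (act γ z)) := by
  refine tendsto_nhdsWithin_of_tendsto_nhds_of_eventually_within _
    ((analyticAt_act γ hz).continuousAt.tendsto.mono_left nhdsWithin_le_nhds) ?_
  filter_upwards [nhdsWithin_le_nhds (isOpen_H.mem_nhds hz), self_mem_nhdsWithin] with w hw hne h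
  exact hne (by
    simpa [act_inv_act γ hw, act_inv_act γ hz] using congrArg (act γ⁻¹) h)

/-- `f` is invariant under `Γ` as a meromorphic function on `H`. -/
def IsInvariant (Γ : Subgroup SL(2, ℤ)) (f : ℂ → ℂ) : Prop :=
  ∀ γ ∈ Γ, ∀ z ∈ H, f ∘ act γ =ᶠ[𝓝[≠] z] f

/-- `g` is an `n`th root of `f` as meromorphic functions on `H`, in normal form. -/
structure IsRoot (n : ℕ) (f g : ℂ → ℂ) : Prop where
  meromorphicNFOn : MeromorphicNFOn g H
  pow_eq : ∀ z ∈ H, g ^ n =ᶠ[𝓝[≠] z] f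
  order_ne_top : ∀ z ∈ H, meromorphicOrderAt g z ≠ ⊤

/-- `g` transforms under `Γ` by the character `χ`. -/
def IsEquivariant (Γ : Subgroup SL(2, ℤ)) (χ : Γ →* ℂˣ) (g : ℂ → ℂ) : Prop :=
  ∀ γ : Γ, ∀ z ∈ H, g (act γ z) = (χ γ : ℂ) * g z

/-- `f` is meromorphic at `∞` with period `h`: a function of `q = exp (2 π i z / h)`,
meromorphic at `q = 0`, near `∞`. -/
def IsMeroAtInfty (h : ℝ) (f : ℂ → ℂ) : Prop :=
  ∃ G : ℂ → ℂ, MeromorphicAt G 0 ∧
    ∃ Y : ℝ, ∀ z : ℂ, Y < z.im → f z = G (Function.Periodic.qParam h z)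

end Fermat.Agent.Multiplier
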