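/-
General lemmas: identity theorem and `n`th roots of meromorphic functions.
-/
import Fermat.Agent.Multiplier.Basic
import Mathlib.Analysis.Meromorphic.FactorizedRational
import Mathlib.Analysis.Complex.HasPrimitives
import Mathlib.Analysis.Calculus.MeanValue
import Mathlib.RingTheory.RootsOfUnity.Basic
import Mathlib.Analysis.SpecialFunctions.Complex.Log

set_option autoImplicit false

open scoped Topology
open Filter Metric

namespace Fermat.Agent.Multiplier

variable {U : Set ℂ} {g₁ g₂ g f : ℂ → ℂ} {n : ℕ} {z₀ z : ℂ}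

/-- Identity theorem for meromorphic functions in normal form. -/
theorem eqOn_of_eventuallyEq_nhdsNE (hU : IsPreconnected U)
    (h₁ : MeromorphicNFOn g₁ U) (h₂ : MeromorphicNFOn g₂ U) (hz₀ : z₀ ∈ U)
    (h : g₁ =ᶠ[𝓝[≠] z₀] g₂) : Set.EqOn g₁ g₂ U := by
  intro w hw
  have hd : MeromorphicOn (g₁ - g₂) U := fun x hx =>
    (h₁ hx).meromorphicAt.sub (h₂ hx).meromorphicAt
  have h0 : meromorphicOrderAt (g₁ - g₂) z₀ = ⊤ := by
    rw [meromorphicOrderAt_eq_top_iff]
    filter_upwards [h] with x hx using sub_eq_zero.2 hx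
  have hwt : meromorphicOrderAt (g₁ - g₂) w = ⊤ := by
    by_contra hne
    exact hd.meromorphicOrderAt_ne_top_of_isPreconnected hU hw hz₀ hne h0
  rw [meromorphicOrderAt_eq_top_iff] at hwt
  have hev : g₁ =ᶠ[𝓝[≠] w] g₂ := by
    filter_upwards [hwt] with x hx using sub_eq_zero.1 hx
  exact (((h₁ hw).eventuallyEq_nhdsNE_iff_eventuallyEq_nhds (h₂ hw)).1 hev).eq_of_nhds

/-- Near a point where a meromorphic function has finite order it is nonzero and analytic. -/
theorem eventually_ne_zero_analyticAt (hg : MeromorphicAt g z) (h : meromorphicOrderAt g z ≠ ⊤) :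
    ∀ᶠ w in 𝓝[≠] z, g w ≠ 0 ∧ AnalyticAt ℂ g w :=
  ((meromorphicOrderAt_ne_top_iff_eventually_ne_zero hg).1 h).and hg.eventually_analyticAt

/-- A normal form function with nonzero value is analytic. -/
theorem analyticAt_of_ne_zero (hg : MeromorphicNFAt g z) (h : g z ≠ 0) : AnalyticAt ℂ g z :=
  hg.meromorphicOrderAt_nonneg_iff_analyticAt.1 (hg.meromorphicOrderAt_eq_zero_iff.2 h).ge

/-- Two roots agreeing at a point of nonzero value agree everywhere. -/
theorem eqOn_of_pow_eq (hn : 0 < n) (hU : IsPreconnected U)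
    (h₁ : MeromorphicNFOn g₁ U) (h₂ : MeromorphicNFOn g₂ U) (hz₀ : z₀ ∈ U)
    (hne : g₁ z₀ ≠ 0) (heq : g₂ z₀ = g₁ z₀) (hpow : g₁ ^ n =ᶠ[𝓝[≠] z₀] g₂ ^ n) :
    Set.EqOn g₁ g₂ U := by
  refine eqOn_of_eventuallyEq_nhdsNE hU h₁ h₂ hz₀ ?_
  have a₁ := (analyticAt_of_ne_zero (h₁ hz₀) hne).continuousAt
  have a₂ := (analyticAt_of_ne_zero (h₂ hz₀) (heq ▸ hne)).continuousAt
  set S : Set ℂ := {x : ℂ | x ^ n = 1} \ {1} with hS
  have hfin : S.Finite := by
    refine Set.Finite.subset (Polynomial.nthRootsFinset n (1 : ℂ)).finite_toSet fun x hx => ?_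
    simpa [Polynomial.mem_nthRootsFinset hn] using hx.1
  have hq : ContinuousAt (fun w => g₂ w / g₁ w) z₀ := a₂.div a₁ hne
  have hmem : ∀ᶠ w in 𝓝 z₀, g₂ w / g₁ w ∉ S := by
    refine hq.eventually_mem (hfin.isClosed.isOpen_compl.mem_nhds ?_)
    simp [hS, heq, hne]
  filter_upwards [nhdsWithin_le_nhds hmem, hpow,
    nhdsWithin_le_nhds (a₁.eventually_ne hne)] with w hw hwp hw0
  by_contra hc
  refine hw ⟨?_, fun h => hc ?_⟩
  · show (g₂ w / g₁ w) ^ n = 1
    have hwp' : g₁ w ^ n = g₂ w ^ n := hwp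
    rw [div_pow, ← hwp', div_self (pow_ne_zero _ hw0)]
  · exact ((div_eq_one_iff_eq hw0).1 h).symm

/-- The order of an `n`th root. -/
theorem order_root_eq (hn : 0 < n) (hg : MeromorphicAt g z) (hpow : g ^ n =ᶠ[𝓝[≠] z] f) {k : ℤ}
    (hk : meromorphicOrderAt f z = ((n * k : ℤ) : WithTop ℤ)) :
    meromorphicOrderAt g z = (k : WithTop ℤ) := by
  have h := meromorphicOrderAt_congr hpow
  rw [meromorphicOrderAt_pow hg, hk] at h
  cases hc : meromorphicOrderAt g z with
  | top =>
    rw [hc, WithTop.mul_top (by exact_mod_cast hn.ne')] at h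
    exact absurd h.symm WithTop.coe_ne_top
  | coe m =>
    rw [hc] at h
    have h' : (n : ℤ) * m = n * k := by exact_mod_cast h
    exact_mod_cast mul_left_cancel₀ (by exact_mod_cast hn.ne') h'

/-- Logarithm of a nonvanishing holomorphic function on a disc. -/
theorem exists_exp_eq_on_ball {u : ℂ → ℂ} {c : ℂ} {r : ℝ}
    (hu : AnalyticOnNhd ℂ u (ball c r)) (hne : ∀ w ∈ ball c r, u w ≠ 0) :
    ∃ L : ℂ → ℂ, AnalyticOnNhd ℂ L (ball c r) ∧ ∀ w ∈ ball c r, Complex.exp (L w) = u w := by
  rcases le_or_gt r 0 with hr | hr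
  · exact ⟨0, analyticOnNhd_const, by simp [ball_eq_empty.2 hr]⟩
  have hd : DifferentiableOn ℂ (fun w => deriv u w / u w) (ball c r) := fun w hw =>
    (((hu w hw).deriv.differentiableAt).div (hu w hw).differentiableAt
      (hne w hw)).differentiableWithinAt
  obtain ⟨L, hLc, hL⟩ := hd.isExactOn_ball.with_val_at c (Complex.log (u c))
  refine ⟨L, DifferentiableOn.analyticOnNhd
    (fun w hw => (hL w hw).differentiableAt.differentiableWithinAt) isOpen_ball, fun w hw => ?_⟩
  have key : ∀ x ∈ ball c r, HasDerivAt (fun y => Complex.exp (-(L y)) * u y) 0 x := by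
    intro x hx
    refine (((hL x hx).neg.cexp).mul (hu x hx).differentiableAt.hasDerivAt).congr_deriv ?_
    field_simp [hne x hx]
    ring
  have hconst : Complex.exp (-(L w)) * u w = Complex.exp (-(L c)) * u c :=
    (convex_ball c r).is_const_of_fderivWithin_eq_zero (𝕜 := ℂ)
      (fun x hx => (key x hx).differentiableAt.differentiableWithinAt)
      (fun x hx => by
        rw [fderivWithin_of_isOpen isOpen_ball hx, (key x hx).hasFDerivAt.fderiv]
        simp)
      hw (mem_ball_self hr)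
  rw [hLc, Complex.exp_neg (Complex.log _), Complex.exp_log (hne c (mem_ball_self hr)),
    inv_mul_cancel₀ (hne c (mem_ball_self hr)), Complex.exp_neg] at hconst
  field_simp [Complex.exp_ne_zero] at hconst
  exact hconst.symm

/-- A root on a disc. -/
theorem exists_root_ball {c : ℂ} {r : ℝ} (hn : 0 < n) (hf : MeromorphicOn f (closedBall c r))
    (hord : ∀ w ∈ closedBall c r, ∃ k : ℤ, meromorphicOrderAt f w = ((n * k : ℤ) : WithTop ℤ)) :
    ∃ g, MeromorphicNFOn g (ball c r) ∧ ∀ w ∈ ball c r, g ^ n =ᶠ[𝓝[≠] w] f := by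
  classical
  set K := closedBall c r
  set D := MeromorphicOn.divisor f K with hD
  have hDfin : D.support.Finite := D.finiteSupport (isCompact_closedBall c r)
  obtain ⟨u, hua, hune, hfu⟩ := hf.extract_zeros_poles (fun w h => by
    obtain ⟨k, hk⟩ := hord w w.2
    rw [hk] at h
    exact WithTop.coe_ne_top h) hDfin
  obtain ⟨L, hLa, hL⟩ := exists_exp_eq_on_ball (hua.mono ball_subset_closedBall)
    (fun w hw => hune ⟨w, ball_subset_closedBall hw⟩)
  set d : ℂ → ℤ := fun w => D w / n
  have hdvd : ∀ w, (n : ℤ) * d w = D w := by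
    intro w
    refine Int.mul_ediv_cancel' ?_
    by_cases hw : w ∈ K
    · obtain ⟨k, hk⟩ := hord w hw
      refine ⟨k, ?_⟩
      rw [hD, MeromorphicOn.divisor_apply hf hw, hk]
      rfl
    · simp [D.apply_eq_zero_of_notMem hw]
  have hdfin : d.HasFiniteSupport := by
    refine hDfin.subset fun w hw => ?_
    simp only [Function.mem_support] at hw ⊢
    intro h
    exact hw (by simp [d, h])
  refine ⟨(fun w => Complex.exp (L w / n)) * ∏ᶠ v, (· - v) ^ d v, fun w hw => ?_, fun w hw => ?_⟩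
  · have ha : AnalyticAt ℂ (fun w => Complex.exp (L w / n)) w :=
      ((hLa w hw).div analyticAt_const (by exact_mod_cast hn.ne')).cexp
    exact (meromorphicNFAt_mul_iff_right ha (Complex.exp_ne_zero _)).2
      (Function.FactorizedRational.meromorphicNFOn_univ d trivial)
  · have h1 := hfu
    rw [EventuallyEq, eventually_iff, mem_codiscreteWithin_iff_forall_mem_nhdsNE] at h1
    filter_upwards [h1 w (ball_subset_closedBall hw),
      nhdsWithin_le_nhds (isOpen_ball.mem_nhds hw)] with x hx hxb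
    have hxK : x ∈ K := ball_subset_closedBall hxb
    have hx' : f x = ((∏ᶠ v, (· - v) ^ D v) • u) x := hx.resolve_right (not_not.2 hxK)
    rw [hx', Pi.pow_apply, Pi.mul_apply, Pi.smul_apply', smul_eq_mul, mul_pow,
      ← Complex.exp_nat_mul, mul_div_cancel₀ _ (by exact_mod_cast hn.ne' : (n : ℂ) ≠ 0), hL x hxb,
      mul_comm]
    congr 1
    rw [Function.FactorizedRational.finprod_eq_fun hdfin,
      Function.FactorizedRational.finprod_eq_fun hDfin, finprod_pow]
    · refine finprod_congr fun v => ?_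
      rw [← zpow_natCast, ← zpow_mul, ← hdvd v, mul_comm]
    · refine hdfin.subset fun v hv => ?_
      simp only [Function.mem_mulSupport] at hv
      exact fun h => hv (by simp [h])

end Fermat.Agent.Multiplier
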