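/-
(1) `n`th roots of meromorphic functions on the upper half plane and their multipliers.
-/
import Fermat.Agent.Multiplier.RootAux

set_option autoImplicit false

open scoped MatrixGroups Topology
open UpperHalfPlane Filter

namespace Fermat.Agent.Multiplier

variable {n : ℕ} {f g g₁ g₂ : ℂ → ℂ} {z' : ℂ}

/-- Near every point of `H` a root is nonzero, analytic, and a pointwise root. -/
theorem IsRoot.eventually_good (hg : IsRoot n f g) {z : ℂ} (hz : z ∈ H) :
    ∀ᶠ w in 𝓝[≠] z, w ∈ H ∧ g w ≠ 0 ∧ g w ^ n = f w := by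
  filter_upwards [nhdsWithin_le_nhds (isOpen_H.mem_nhds hz),
    eventually_ne_zero_analyticAt (hg.meromorphicNFOn hz).meromorphicAt (hg.order_ne_top z hz),
    hg.pow_eq z hz] with w h1 h2 h3
  exact ⟨h1, h2.1, h3⟩

theorem exists_ne_zero_mem (hg : MeromorphicAt g z') (hne : meromorphicOrderAt g z' ≠ ⊤)
    (hz : z' ∈ H) : ∃ w ∈ H, g w ≠ 0 :=
  ((eventually_ne_zero_analyticAt hg hne).and (nhdsWithin_le_nhds (isOpen_H.mem_nhds hz))).exists.elim
    fun w hw => ⟨w, hw.2, hw.1.1⟩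

/-- Multiples by a nonzero constant are in normal form. -/
theorem meromorphicNFOn_const_mul {U : Set ℂ} {a : ℂ} (ha : a ≠ 0) (hg : MeromorphicNFOn g U) :
    MeromorphicNFOn (fun w => a * g w) U := fun _ hw =>
  (meromorphicNFAt_mul_iff_right (g := fun _ => a) analyticAt_const ha).2 (hg hw)

/-- A meromorphic function on `H` all of whose orders are finite and divisible by `n` has an
`n`th root. -/
theorem exists_root (hn : 0 < n) (hf : MeromorphicOn f H)
    (hord : ∀ z ∈ H, ∃ k : ℤ, meromorphicOrderAt f z = ((n * k : ℤ) : WithTop ℤ)) :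
    ∃ g, IsRoot n f g := by
  classical
  set R : ℕ → ℝ := fun j => (j : ℝ) + 2 with hR
  set B : ℕ → Set ℂ := fun j => Metric.ball (Complex.I * R j) (R j - 1 / R j) with hB
  have hR2 : ∀ j, 2 ≤ R j := fun j => by simp [hR]
  have hR0 : ∀ j, 0 < R j := fun j => by linarith [hR2 j]
  have hsub : ∀ j, Metric.closedBall (Complex.I * R j) (R j - 1 / R j) ⊆ H := by
    intro j w hw
    have h1 : |(w - Complex.I * R j).im| ≤ R j - 1 / R j :=
      (Complex.abs_im_le_norm _).trans (by rwa [Metric.mem_closedBall, dist_eq_norm] at hw)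
    have h2 : (w - Complex.I * R j).im = w.im - R j := by simp
    rw [h2] at h1
    have := (abs_le.1 h1).1
    have : 0 < 1 / R j := one_div_pos.2 (hR0 j)
    show 0 < w.im
    linarith
  have hmono : ∀ i j, i ≤ j → B i ⊆ B j := by
    intro i j hij
    refine Metric.ball_subset_ball' ?_
    have hle : R i ≤ R j := by simp only [hR]; gcongr
    have hd : dist (Complex.I * R i) (Complex.I * R j) = R j - R i := by
      rw [dist_comm, dist_eq_norm, ← mul_sub, ← Complex.ofReal_sub, norm_mul, Complex.norm_I,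
        one_mul, Complex.norm_real, Real.norm_of_nonneg (by linarith)]
    have : 1 / R j ≤ 1 / R i := one_div_le_one_div_of_le (hR0 i) hle
    rw [hd]
    linarith
  have hcov : ∀ w ∈ H, ∃ j, w ∈ B j := by
    intro w hw
    obtain ⟨j, hj⟩ := exists_nat_gt ((w.re ^ 2 + w.im ^ 2 + 2) / (2 * w.im))
    refine ⟨j, ?_⟩
    have hy : (0 : ℝ) < w.im := hw
    have h1 : w.re ^ 2 + w.im ^ 2 + 2 < (R j) * (2 * w.im) := by
      rw [div_lt_iff₀ (by positivity)] at hj
      simp only [hR]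
      nlinarith
    have h2 : R j * (1 / R j) = 1 := mul_div_cancel₀ 1 (hR0 j).ne'
    have hpos : 0 ≤ R j - 1 / R j := by
      have : 1 / R j ≤ 1 := by rw [div_le_one (hR0 j)]; linarith [hR2 j]
      linarith [hR2 j]
    rw [hB, Metric.mem_ball, dist_eq_norm, Complex.norm_def, Real.sqrt_lt' ]
    · simp only [Complex.normSq_apply, Complex.sub_re, Complex.sub_im, Complex.mul_re,
        Complex.mul_im, Complex.I_re, Complex.I_im, Complex.ofReal_re, Complex.ofReal_im]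
      nlinarith [sq_nonneg (1 / R j)]
    · have : 1 / R j < R j := by
        rw [div_lt_iff₀ (hR0 j)]; nlinarith [hR2 j]
      linarith
  choose G hG hGpow using fun j => exists_root_ball hn (hf.mono_set (hsub j))
    (fun w hw => hord w (hsub j hw))
  have hI : Complex.I ∈ B 0 := by
    rw [hB, Metric.mem_ball, dist_eq_norm]
    have : Complex.I - Complex.I * (R 0 : ℂ) = ((1 - R 0 : ℝ) : ℂ) * Complex.I := by
      push_cast; ring
    rw [this, norm_mul, Complex.norm_I, mul_one, Complex.norm_real, Real.norm_eq_abs]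
    norm_num [hR]
  obtain ⟨z₀, hz₀B, hf0, hfa⟩ : ∃ z₀, z₀ ∈ B 0 ∧ f z₀ ≠ 0 ∧ AnalyticAt ℂ f z₀ := by
    obtain ⟨k, hk⟩ := hord Complex.I I_mem_H
    exact ((eventually_of_mem (nhdsWithin_le_nhds (Metric.isOpen_ball.mem_nhds hI)) fun _ hx => hx).and
      (eventually_ne_zero_analyticAt (hf _ I_mem_H) (by rw [hk]; exact WithTop.coe_ne_top))).exists
  have hG0 : ∀ j, G j z₀ ≠ 0 ∧ G j z₀ ^ n = f z₀ := by
    intro j
    have hzj := hmono 0 j (Nat.zero_le _) hz₀B
    have ho : meromorphicOrderAt f z₀ = (((n : ℤ) * 0 : ℤ) : WithTop ℤ) := by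
      rw [mul_zero]
      exact (hfa.meromorphicNFAt.meromorphicOrderAt_eq_zero_iff).2 hf0
    have h0 := order_root_eq hn (hG j hzj).meromorphicAt (hGpow j z₀ hzj) ho
    rw [WithTop.coe_zero] at h0
    have hne := (hG j hzj).meromorphicOrderAt_eq_zero_iff.1 h0
    refine ⟨hne, ?_⟩
    have hc : ContinuousAt (G j ^ n) z₀ :=
      ((analyticAt_of_ne_zero (hG j hzj) hne).pow n).continuousAt
    exact ((hc.eventuallyEq_nhds_iff_eventuallyEq_nhdsNE hfa.continuousAt).1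
      (hGpow j z₀ hzj)).eq_of_nhds
  set a : ℕ → ℂ := fun j => G 0 z₀ / G j z₀ with ha
  have ha0 : ∀ j, a j ≠ 0 := fun j => div_ne_zero (hG0 0).1 (hG0 j).1
  have han : ∀ j, a j ^ n = 1 := fun j => by
    rw [ha, div_pow, (hG0 0).2, (hG0 j).2, div_self hf0]
  have hagree : ∀ i j, i ≤ j → ∀ w ∈ B i, a i * G i w = a j * G j w := by
    intro i j hij
    refine eqOn_of_pow_eq hn (convex_ball _ _).isPreconnected
      (meromorphicNFOn_const_mul (ha0 i) (hG i))
      (fun w hw => meromorphicNFOn_const_mul (ha0 j) (hG j) (hmono i j hij hw))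
      (hmono 0 i (Nat.zero_le _) hz₀B) (mul_ne_zero (ha0 i) (hG0 i).1) ?_ ?_
    · simp only [ha]
      rw [div_mul_cancel₀ _ (hG0 i).1, div_mul_cancel₀ _ (hG0 j).1]
    · filter_upwards [hGpow i z₀ (hmono 0 i (Nat.zero_le _) hz₀B),
        hGpow j z₀ (hmono 0 j (Nat.zero_le _) hz₀B)] with w h1 h2
      simp only [Pi.pow_apply] at h1 h2 ⊢
      rw [mul_pow, mul_pow, han, han, h1, h2]
  set g : ℂ → ℂ := fun w => if h : ∃ j, w ∈ B j then a (Nat.find h) * G (Nat.find h) w else 0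
    with hgdef
  have hloc : ∀ j, ∀ w ∈ B j, g w = a j * G j w := by
    intro j w hw
    have h : ∃ j, w ∈ B j := ⟨j, hw⟩
    simp only [hgdef, dif_pos h]
    exact hagree _ _ (Nat.find_min' h hw) w (Nat.find_spec h)
  have hev : ∀ j, ∀ w ∈ B j, g =ᶠ[𝓝 w] fun x => a j * G j x := fun j w hw => by
    filter_upwards [Metric.isOpen_ball.mem_nhds hw] with x hx using hloc j x hx
  have hnf : MeromorphicNFOn g H := by
    intro w hw
    obtain ⟨j, hj⟩ := hcov w hw
    exact (meromorphicNFAt_congr (hev j w hj)).2 (meromorphicNFOn_const_mul (ha0 j) (hG j) hj)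
  have hpow : ∀ w ∈ H, g ^ n =ᶠ[𝓝[≠] w] f := by
    intro w hw
    obtain ⟨j, hj⟩ := hcov w hw
    filter_upwards [(hev j w hj).filter_mono nhdsWithin_le_nhds, hGpow j w hj] with x h1 h2
    simp only [Pi.pow_apply] at h2 ⊢
    rw [h1, mul_pow, han, one_mul, h2]
  refine ⟨g, hnf, hpow, fun w hw => ?_⟩
  obtain ⟨k, hk⟩ := hord w hw
  rw [order_root_eq hn (hnf hw).meromorphicAt (hpow w hw) hk]
  exact WithTop.coe_ne_top

theorem IsRoot.meromorphicOrderAt_eq (hg : IsRoot n f g) {z : ℂ} (hz : z ∈ H) :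
    ∃ k : ℤ, meromorphicOrderAt g z = (k : WithTop ℤ) ∧
      meromorphicOrderAt f z = ((n * k : ℤ) : WithTop ℤ) := by
  obtain ⟨k, hk⟩ := WithTop.ne_top_iff_exists.1 (hg.order_ne_top z hz)
  refine ⟨k, hk.symm, ?_⟩
  rw [← meromorphicOrderAt_congr (hg.pow_eq z hz),
    meromorphicOrderAt_pow (hg.meromorphicNFOn hz).meromorphicAt, ← hk]
  norm_cast

/-- Two roots differ by a root of unity. -/
theorem IsRoot.unique (hn : 0 < n) (h₁ : IsRoot n f g₁) (h₂ : IsRoot n f g₂) :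
    ∃ ζ : ℂ, ζ ^ n = 1 ∧ ∀ z ∈ H, g₂ z = ζ * g₁ z := by
  obtain ⟨w, ⟨hw, h1, h1p⟩, -, h2, h2p⟩ :=
    ((h₁.eventually_good I_mem_H).and (h₂.eventually_good I_mem_H)).exists
  have hζ : (g₂ w / g₁ w) ^ n = 1 := by
    rw [div_pow, h1p, h2p, div_self (h1p ▸ pow_ne_zero _ h1)]
  refine ⟨g₂ w / g₁ w, hζ, fun z hz => ?_⟩
  refine (eqOn_of_pow_eq (g₁ := fun x => g₂ w / g₁ w * g₁ x) hn isPreconnected_H
    (meromorphicNFOn_const_mul (div_ne_zero h2 h1) h₁.meromorphicNFOn) h₂.meromorphicNFOn hw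
    (mul_ne_zero (div_ne_zero h2 h1) h1) (div_mul_cancel₀ _ h1).symm ?_ hz).symm
  filter_upwards [h₁.pow_eq w hw, h₂.pow_eq w hw] with x e1 e2
  simp only [Pi.pow_apply] at e1 e2 ⊢
  rw [mul_pow, hζ, one_mul, e1, e2]

/-- Transport of a root along `act A` (used for the other cusps). -/
theorem IsRoot.comp_act (hg : IsRoot n f g) (A : SL(2, ℤ)) :
    IsRoot n (f ∘ act A) (g ∘ act A) where
  meromorphicNFOn z hz :=
    (hg.meromorphicNFOn (act_mem hz)).comp_analyticAt (analyticAt_act A hz)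
  pow_eq z hz := (tendsto_act_nhdsNE A hz).eventually (hg.pow_eq _ (act_mem hz))
  order_ne_top z hz := by
    rw [meromorphicOrderAt_comp_of_deriv_ne_zero (analyticAt_act A hz) (deriv_act_ne_zero A hz)]
    exact hg.order_ne_top _ (act_mem hz)

/-- The multiplier character of a root of an invariant function. -/
theorem IsRoot.exists_multiplier (hn : 0 < n) {Γ : Subgroup SL(2, ℤ)} (hg : IsRoot n f g)
    (hinv : IsInvariant Γ f) :
    ∃ χ : Γ →* ℂˣ, (∀ γ, χ γ ^ n = 1) ∧ IsEquivariant Γ χ g := by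
  have hroot : ∀ γ : Γ, IsRoot n f (g ∘ act (γ : SL(2, ℤ))) := fun γ =>
    { meromorphicNFOn := (hg.comp_act _).meromorphicNFOn
      order_ne_top := (hg.comp_act _).order_ne_top
      pow_eq := fun z hz => ((hg.comp_act _).pow_eq z hz).trans (hinv _ γ.2 z hz) }
  choose ζ hζn hζ using fun γ => hg.unique hn (hroot γ)
  obtain ⟨w, hw, hw0, -⟩ := (hg.eventually_good I_mem_H).exists
  have huniq : ∀ (γ : Γ) (c : ℂ), g (act (γ : SL(2, ℤ)) w) = c * g w → ζ γ = c := fun γ c h =>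
    mul_right_cancel₀ hw0 ((hζ γ w hw).symm.trans h)
  have h0 : ∀ γ, ζ γ ≠ 0 := fun γ h => by simpa [h, hn.ne'] using hζn γ
  let χ : Γ →* ℂˣ :=
    { toFun := fun γ => Units.mk0 (ζ γ) (h0 γ)
      map_one' := Units.ext (huniq 1 1 (by simp [act_one]))
      map_mul' := fun γ δ => Units.ext (huniq (γ * δ) (ζ γ * ζ δ) (by
        rw [Subgroup.coe_mul, act_mul _ _ hw]
        calc g (act _ (act _ w)) = ζ γ * g (act _ w) := hζ γ _ (act_mem hw)
          _ = _ := by rw [show g (act _ w) = ζ δ * g w from hζ δ w hw, mul_assoc])) }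
  exact ⟨χ, fun γ => Units.ext (by simpa [χ] using hζn γ), fun γ z hz => hζ γ z hz⟩

theorem IsEquivariant.unique {Γ : Subgroup SL(2, ℤ)} {χ χ' : Γ →* ℂˣ}
    (hg : MeromorphicNFOn g H) (hne : meromorphicOrderAt g Complex.I ≠ ⊤)
    (h : IsEquivariant Γ χ g) (h' : IsEquivariant Γ χ' g) : χ = χ' := by
  obtain ⟨w, hw, hw0⟩ := exists_ne_zero_mem (hg I_mem_H).meromorphicAt hne I_mem_H
  ext γ
  exact mul_right_cancel₀ hw0 ((h γ w hw).symm.trans (h' γ w hw))

theorem IsEquivariant.map_neg_one {Γ : Subgroup SL(2, ℤ)} {χ : Γ →* ℂˣ}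
    (hg : MeromorphicNFOn g H) (hne : meromorphicOrderAt g Complex.I ≠ ⊤)
    (h : IsEquivariant Γ χ g) (γ : Γ) (hγ : (γ : SL(2, ℤ)) = -1) : χ γ = 1 := by
  obtain ⟨w, hw, hw0⟩ := exists_ne_zero_mem (hg I_mem_H).meromorphicAt hne I_mem_H
  refine Units.ext (mul_right_cancel₀ hw0 ?_)
  rw [← h γ w hw, hγ, act_neg, act_one, Units.val_one, one_mul]

/-- At a fixed point of order `m` the multiplier is the `m`th power of the derivative. -/
theorem multiplier_eq_zpow_of_fixed (γ : SL(2, ℤ)) {c z₀ : ℂ} {m : ℤ} (hz₀ : z₀ ∈ H)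
    (hfix : act γ z₀ = z₀) (hg : MeromorphicAt g z₀)
    (hm : meromorphicOrderAt g z₀ = (m : WithTop ℤ))
    (hc : (fun z => g (act γ z)) =ᶠ[𝓝[≠] z₀] fun z => c * g z) :
    c = ((jfac γ z₀ ^ 2)⁻¹) ^ m := by
  obtain ⟨u, hua, hu0, hu⟩ := (meromorphicOrderAt_eq_int_iff hg).1 hm
  have hd := hasDerivAt_act γ hz₀
  have ht := tendsto_act_nhdsNE γ hz₀
  rw [hfix] at ht
  have hl : Tendsto (fun z => ((act γ z - z₀) / (z - z₀)) ^ m * u (act γ z)) (𝓝[≠] z₀)
      (𝓝 (((jfac γ z₀ ^ 2)⁻¹) ^ m * u z₀)) := by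
    have h1 : Tendsto (fun z => (act γ z - z₀) / (z - z₀)) (𝓝[≠] z₀)
        (𝓝 (jfac γ z₀ ^ 2)⁻¹) := by
      refine Tendsto.congr (fun z => ?_) (hasDerivAt_iff_tendsto_slope.1 hd)
      rw [slope_def_field, hfix]
    refine (h1.zpow₀ m (Or.inl (inv_ne_zero (pow_ne_zero _ (jfac_ne_zero γ hz₀))))).mul ?_
    exact hua.continuousAt.tendsto.comp (ht.mono_right nhdsWithin_le_nhds)
  have hr : Tendsto (fun z => c * u z) (𝓝[≠] z₀) (𝓝 (c * u z₀)) :=
    (hua.continuousAt.tendsto.mono_left nhdsWithin_le_nhds).const_mul c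
  refine (mul_right_cancel₀ hu0 (tendsto_nhds_unique (hl.congr' ?_) hr)).symm
  filter_upwards [hu, ht.eventually hu, hc, self_mem_nhdsWithin] with z h1 h2 h3 hne
  simp only [smul_eq_mul] at h1 h2
  have hz : (z - z₀) ^ m ≠ 0 := zpow_ne_zero _ (sub_ne_zero.2 hne)
  rw [h2, h1] at h3
  rw [div_zpow]
  field_simp
  linear_combination h3

theorem norm_qParam_lt {h ε : ℝ} (hh : 0 < h) (hε : 0 < ε) :
    ∃ Y : ℝ, ∀ z : ℂ, Y < z.im → ‖Function.Periodic.qParam h z‖ < ε := by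
  refine ⟨-(h * Real.log ε) / (2 * Real.pi), fun z hz => ?_⟩
  rw [div_lt_iff₀ (by positivity)] at hz
  rw [Function.Periodic.norm_qParam, ← Real.lt_log_iff_exp_lt hε, div_lt_iff₀ hh]
  linarith

theorem analyticAt_qParam (h : ℝ) (z : ℂ) : AnalyticAt ℂ (Function.Periodic.qParam h) z := by
  unfold Function.Periodic.qParam
  fun_prop

theorem qParam_natCast_mul_pow (hn : 0 < n) (h : ℝ) (z : ℂ) :
    Function.Periodic.qParam (n * h) z ^ n = Function.Periodic.qParam h z := by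
  have : (n : ℂ) ≠ 0 := by exact_mod_cast hn.ne'
  simp only [Function.Periodic.qParam, ← Complex.exp_nat_mul]
  push_cast
  congr 1
  field_simp

/-- A root of a function which has order `k` at `∞` (period `h`) is, near `∞`,
`exp (2 π i k z / (n h))` times a unit in `q`. -/
theorem IsRoot.eventually_eq_at_infty (hn : 0 < n) (hg : IsRoot n f g) {h : ℝ} (hh : 0 < h)
    {G : ℂ → ℂ} (hG : MeromorphicAt G 0) {Y : ℝ}
    (hY : ∀ z : ℂ, Y < z.im → f z = G (Function.Periodic.qParam h z)) :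
    ∃ k : ℤ, meromorphicOrderAt G 0 = (k : WithTop ℤ) ∧ ∃ v : ℂ → ℂ, AnalyticAt ℂ v 0 ∧ v 0 ≠ 0 ∧
      ∃ Y' : ℝ, ∀ z : ℂ, Y' < z.im →
        g z = Function.Periodic.qParam (n * h) z ^ k * v (Function.Periodic.qParam h z) := by
  have hopen : ∀ y : ℝ, IsOpen {z : ℂ | y < z.im} :=
    fun y => isOpen_lt continuous_const Complex.continuous_im
  have hpick : ∀ y : ℝ, 0 ≤ y → ∃ w : ℂ, y < w.im ∧ w ∈ H ∧ g w ≠ 0 ∧ g w ^ n = f w := by
    intro y hy
    have hm : ((y + 1 : ℝ) : ℂ) * Complex.I ∈ H := by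
      simp only [H, Set.mem_ofPred_eq, Complex.mul_im, Complex.ofReal_re, Complex.I_im,
        Complex.ofReal_im, Complex.I_re]
      linarith
    have hev : ∀ᶠ z in 𝓝[≠] (((y + 1 : ℝ) : ℂ) * Complex.I), y < z.im :=
      nhdsWithin_le_nhds ((hopen y).mem_nhds
        (show ((y + 1 : ℝ) : ℂ) * Complex.I ∈ {z : ℂ | y < z.im} by simp))
    obtain ⟨w, h1, h2⟩ := (hev.and (hg.eventually_good hm)).exists
    exact ⟨w, h1, h2⟩
  have hG' : meromorphicOrderAt G 0 ≠ ⊤ := by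
    intro htop
    rw [meromorphicOrderAt_eq_top_iff, eventually_nhdsWithin_iff,
      Metric.eventually_nhds_iff] at htop
    obtain ⟨ε, hε, hGε⟩ := htop
    obtain ⟨Y₁, hY₁⟩ := norm_qParam_lt hh hε
    obtain ⟨w, hwy, hwH, hw0, hwp⟩ := hpick (max (max Y Y₁) 0) (le_max_right _ _)
    refine pow_ne_zero n hw0 (hwp.trans ?_)
    rw [hY w (lt_of_le_of_lt (le_trans (le_max_left _ _) (le_max_left _ _)) hwy)]
    refine hGε ?_ (Complex.exp_ne_zero _)
    rw [dist_zero_right]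
    exact hY₁ w (lt_of_le_of_lt (le_trans (le_max_right _ _) (le_max_left _ _)) hwy)
  obtain ⟨k, hk⟩ := WithTop.ne_top_iff_exists.1 hG'
  refine ⟨k, hk.symm, ?_⟩
  obtain ⟨u, hua, hu0, hu⟩ := (meromorphicOrderAt_eq_int_iff hG).1 hk.symm
  rw [eventually_nhdsWithin_iff] at hu
  obtain ⟨ε, hε, hball⟩ := Metric.eventually_nhds_iff_ball.1
    (hu.and (hua.eventually_analyticAt.and (hua.continuousAt.eventually_ne hu0)))
  obtain ⟨L, hLa, hL⟩ := exists_exp_eq_on_ball (r := ε) (fun w hw => (hball w hw).2.1)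
    (fun w hw => (hball w hw).2.2)
  set v₀ : ℂ → ℂ := fun w => Complex.exp (L w / n)
  have hv : ∀ w ∈ Metric.ball (0 : ℂ) ε, v₀ w ^ n = u w := fun w hw => by
    rw [← hL w hw, ← Complex.exp_nat_mul, mul_div_cancel₀]
    exact_mod_cast hn.ne'
  have hv0a : ∀ w ∈ Metric.ball (0 : ℂ) ε, AnalyticAt ℂ v₀ w := fun w hw =>
    ((hLa w hw).div analyticAt_const (by exact_mod_cast hn.ne')).cexp
  obtain ⟨Y₁, hY₁⟩ := norm_qParam_lt hh hε
  set Y' := max (max Y Y₁) 0 with hY'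
  set V : Set ℂ := {z : ℂ | Y' < z.im}
  have hVq : ∀ z ∈ V, Function.Periodic.qParam h z ∈ Metric.ball (0 : ℂ) ε := fun z hz => by
    rw [mem_ball_zero_iff]
    exact hY₁ z (lt_of_le_of_lt (le_trans (le_max_right _ _) (le_max_left _ _)) hz)
  have hVY : ∀ z ∈ V, Y < z.im := fun z hz =>
    lt_of_le_of_lt (le_trans (le_max_left _ _) (le_max_left _ _)) hz
  have hVH : V ⊆ H := fun z hz => show 0 < z.im from lt_of_le_of_lt (le_max_right _ _) hz
  set g' : ℂ → ℂ := fun z =>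
    Function.Periodic.qParam (n * h) z ^ k * v₀ (Function.Periodic.qParam h z)
  have hg'a : ∀ z ∈ V, AnalyticAt ℂ g' z := fun z hz =>
    ((analyticAt_qParam _ z).zpow (Complex.exp_ne_zero _)).mul
      ((hv0a _ (hVq z hz)).comp (analyticAt_qParam h z))
  have hg'n : ∀ z, g' z ≠ 0 := fun z =>
    mul_ne_zero (zpow_ne_zero _ (Complex.exp_ne_zero _)) (Complex.exp_ne_zero _)
  have hg'p : ∀ z ∈ V, g' z ^ n = f z := by
    intro z hz
    rw [hY z (hVY z hz), (hball _ (hVq z hz)).1 (Complex.exp_ne_zero _), sub_zero, smul_eq_mul]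
    simp only [g']
    rw [mul_pow, hv _ (hVq z hz), ← zpow_natCast (_ ^ k), ← zpow_mul, mul_comm k, zpow_mul,
      zpow_natCast, qParam_natCast_mul_pow hn]
  obtain ⟨w, hwV, hwH, hw0, hwp⟩ := hpick Y' (le_max_right _ _)
  set ζ := g w / g' w
  have hζ : ζ ^ n = 1 := by
    rw [div_pow, hwp, hg'p w hwV, div_self (hwp ▸ pow_ne_zero _ hw0)]
  have heq : Set.EqOn (fun z => ζ * g' z) g V := by
    refine eqOn_of_pow_eq hn (convex_halfSpace_im_gt Y').isPreconnected
      (meromorphicNFOn_const_mul (div_ne_zero hw0 (hg'n w))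
        fun z hz => (hg'a z hz).meromorphicNFAt)
      (fun z hz => hg.meromorphicNFOn (hVH hz)) hwV
      (mul_ne_zero (div_ne_zero hw0 (hg'n w)) (hg'n w)) (div_mul_cancel₀ _ (hg'n w)).symm ?_
    filter_upwards [hg.pow_eq w hwH, nhdsWithin_le_nhds ((hopen Y').mem_nhds hwV)] with z h1 h2
    simp only [Pi.pow_apply] at h1 ⊢
    rw [mul_pow, hζ, one_mul, hg'p z h2, h1]
  refine ⟨fun q => ζ * v₀ q, analyticAt_const.mul (hv0a 0 (Metric.mem_ball_self hε)),
    mul_ne_zero (div_ne_zero hw0 (hg'n w)) (Complex.exp_ne_zero _), Y', fun z hz => ?_⟩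
  rw [← heq hz]
  simp only [g']
  ring

/-- Translation multiplier: if `f` has order `k` at `∞` then `g (z + h) = ζₙ ^ k g z`. -/
theorem IsRoot.add_period (hn : 0 < n) (hg : IsRoot n f g) {h : ℝ} (hh : 0 < h)
    {G : ℂ → ℂ} (hG : MeromorphicAt G 0) {Y : ℝ}
    (hY : ∀ z : ℂ, Y < z.im → f z = G (Function.Periodic.qParam h z))
    {k : ℤ} (hk : meromorphicOrderAt G 0 = (k : WithTop ℤ)) {z : ℂ} (hz : z ∈ H) :
    g (z + h) = Complex.exp (2 * Real.pi * Complex.I * k / n) * g z := by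
  obtain ⟨k', hk', v, -, -, Y', hg'⟩ := hg.eventually_eq_at_infty hn hh hG hY
  obtain rfl : k' = k := WithTop.coe_injective (hk'.symm.trans hk)
  have hshift : ∀ w ∈ H, w + (h : ℂ) ∈ H := fun w hw => by
    simpa [H] using (show 0 < w.im from hw)
  have hnf : MeromorphicNFOn (fun w => g (w + h)) H := fun w hw =>
    (hg.meromorphicNFOn (hshift w hw)).comp_analyticAt (g := fun x => x + (h : ℂ)) (by fun_prop)
  have hw₀ : ((max Y' 0 + 1 : ℝ) : ℂ) * Complex.I ∈ {x : ℂ | max Y' 0 < x.im} := by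
    show max Y' 0 < (((max Y' 0 + 1 : ℝ) : ℂ) * Complex.I).im
    rw [Complex.mul_I_im, Complex.ofReal_re]
    exact lt_add_one _
  have hev : (fun w => g (w + h)) =ᶠ[𝓝[≠] (((max Y' 0 + 1 : ℝ) : ℂ) * Complex.I)]
      fun w => Complex.exp (2 * Real.pi * Complex.I * k' / n) * g w := by
    filter_upwards [nhdsWithin_le_nhds
      ((isOpen_lt continuous_const Complex.continuous_im).mem_nhds hw₀)] with w hw
    have hw' : Y' < w.im := lt_of_le_of_lt (le_max_left _ _) hw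
    have h1 : (n : ℂ) ≠ 0 := by exact_mod_cast hn.ne'
    have h2 : (h : ℂ) ≠ 0 := by exact_mod_cast hh.ne'
    have hq : Function.Periodic.qParam h (w + h) = Function.Periodic.qParam h w := by
      simp only [Function.Periodic.qParam]
      rw [mul_add, add_div, Complex.exp_add, mul_div_cancel_right₀ _ h2, Complex.exp_two_pi_mul_I,
        mul_one]
    rw [hg' w hw', hg' (w + h) (by simpa using hw'), hq, ← mul_assoc]
    congr 1
    simp only [Function.Periodic.qParam, ← Complex.exp_int_mul, ← Complex.exp_add]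
    congr 1
    push_cast
    field_simp
    ring
  refine eqOn_of_eventuallyEq_nhdsNE isPreconnected_H hnf
    (meromorphicNFOn_const_mul (Complex.exp_ne_zero _) hg.meromorphicNFOn) ?_ hev hz
  exact show (0 : ℝ) < _ from lt_of_le_of_lt (le_max_right _ _) hw₀

theorem act_T_zpow (h : ℤ) {z : ℂ} (hz : z ∈ H) : act (ModularGroup.T ^ h) z = z + h := by
  have := coe_smul_eq_act (ModularGroup.T ^ h) ⟨z, hz⟩
  rw [UpperHalfPlane.modular_T_zpow_smul, UpperHalfPlane.coe_vadd] at this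
  rw [← this]
  push_cast
  ring

/-- If `g ∘ A` is periodic of period `h` then the multiplier kills the parabolic element
`A T ^ h A⁻¹`. -/
theorem IsEquivariant.map_parabolic {Γ : Subgroup SL(2, ℤ)} {χ : Γ →* ℂˣ}
    (hg : MeromorphicNFOn g H) (hne : meromorphicOrderAt g Complex.I ≠ ⊤)
    (he : IsEquivariant Γ χ g) (A : SL(2, ℤ)) (h : ℤ) (γ : Γ)
    (hγ : (γ : SL(2, ℤ)) = A * ModularGroup.T ^ h * A⁻¹)
    (hper : ∀ z ∈ H, g (act A (z + h)) = g (act A z)) : χ γ = 1 := by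
  obtain ⟨w, hw, hw0⟩ := exists_ne_zero_mem (hg I_mem_H).meromorphicAt hne I_mem_H
  refine Units.ext (mul_right_cancel₀ hw0 ?_)
  rw [← he γ w hw, hγ, act_mul _ _ hw, act_mul _ _ (act_mem hw), act_T_zpow _ (act_mem hw),
    hper _ (act_mem hw), act_act_inv _ hw, Units.val_one, one_mul]

/-- Every element of trace `± 2` is up to sign conjugate to a power of `T`. -/
theorem exists_conj_T_zpow {γ : SL(2, ℤ)} (hγ : (γ : Matrix (Fin 2) (Fin 2) ℤ).trace ^ 2 = 4) :
    ∃ (A : SL(2, ℤ)) (m : ℤ),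
      γ = A * ModularGroup.T ^ m * A⁻¹ ∨ γ = -(A * ModularGroup.T ^ m * A⁻¹) := by
  have htwo : ∀ δ : SL(2, ℤ), δ 0 0 + δ 1 1 = 2 →
      ∃ (A : SL(2, ℤ)) (m : ℤ), δ = A * ModularGroup.T ^ m * A⁻¹ := by
    intro δ htr
    have hdet := δ.2
    rw [Matrix.det_fin_two] at hdet
    obtain ⟨x, y, hxy, h1, h2⟩ : ∃ x y : ℤ, IsCoprime x y ∧
        δ 0 0 * x + δ 0 1 * y = x ∧ δ 1 0 * x + δ 1 1 * y = y := by
      by_cases hr : δ 1 0 = 0
      · refine ⟨1, 0, isCoprime_one_left, ?_, by simp [hr]⟩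
        rw [hr] at hdet
        nlinarith [hdet, htr]
      · have hd : Int.gcd (δ 0 0 - 1) (δ 1 0) ≠ 0 := fun h => hr (Int.gcd_eq_zero_iff.1 h).2
        obtain ⟨x, hx⟩ := Int.gcd_dvd_left (δ 0 0 - 1) (δ 1 0)
        obtain ⟨y, hy⟩ := Int.gcd_dvd_right (δ 0 0 - 1) (δ 1 0)
        have hd' : ((Int.gcd (δ 0 0 - 1) (δ 1 0) : ℕ) : ℤ) ≠ 0 := by exact_mod_cast hd
        refine ⟨x, y, ?_, mul_left_cancel₀ hd' ?_, mul_left_cancel₀ hd' ?_⟩
        · refine ⟨Int.gcdA (δ 0 0 - 1) (δ 1 0), Int.gcdB (δ 0 0 - 1) (δ 1 0),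
            mul_left_cancel₀ hd' ?_⟩
          linear_combination (-1 : ℤ) * Int.gcd_eq_gcd_ab (δ 0 0 - 1) (δ 1 0)
            - Int.gcdA (δ 0 0 - 1) (δ 1 0) * hx - Int.gcdB (δ 0 0 - 1) (δ 1 0) * hy
        · linear_combination (-(δ 0 0) + 1) * hx - δ 0 1 * hy - hdet + δ 0 0 * htr
        · linear_combination (-(δ 1 0)) * hx + (-(δ 1 1) + 1) * hy + δ 1 0 * htr
    obtain ⟨u, v, huv⟩ := hxy
    let A : SL(2, ℤ) := ⟨!![x, -v; y, u], by rw [Matrix.det_fin_two_of]; linarith⟩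
    refine ⟨A, (A⁻¹ * δ * A : SL(2, ℤ)) 0 1, ?_⟩
    have key : A⁻¹ * δ * A = ModularGroup.T ^ ((A⁻¹ * δ * A : SL(2, ℤ)) 0 1) := by
      have h00 : (A⁻¹ * δ * A : SL(2, ℤ)) 0 0 = 1 := by
        simp only [A, Matrix.SpecialLinearGroup.coe_mul, Matrix.SpecialLinearGroup.coe_inv,
          Matrix.adjugate_fin_two, Matrix.mul_apply, Fin.sum_univ_two]
        simp
        linear_combination u * h1 + v * h2 + huv
      have h10 : (A⁻¹ * δ * A : SL(2, ℤ)) 1 0 = 0 := by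
        simp only [A, Matrix.SpecialLinearGroup.coe_mul, Matrix.SpecialLinearGroup.coe_inv,
          Matrix.adjugate_fin_two, Matrix.mul_apply, Fin.sum_univ_two]
        simp
        linear_combination (-y) * h1 + x * h2
      have h11 : (A⁻¹ * δ * A : SL(2, ℤ)) 1 1 = 1 := by
        have := (A⁻¹ * δ * A : SL(2, ℤ)).2
        rw [Matrix.det_fin_two, h00, h10] at this
        linarith
      ext i j
      rw [ModularGroup.coe_T_zpow]
      fin_cases i <;> fin_cases j <;> simp [h00, h10, h11]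
    rw [← key]
    group
  rw [Matrix.trace_fin_two] at hγ
  rcases sq_eq_sq_iff_eq_or_eq_neg.1 (hγ.trans (show (4 : ℤ) = 2 ^ 2 by norm_num)) with h | h
  · obtain ⟨A, m, hA⟩ := htwo γ h
    exact ⟨A, m, Or.inl hA⟩
  · obtain ⟨A, m, hA⟩ := htwo (-γ) (by
      simp only [Matrix.SpecialLinearGroup.coe_neg, Matrix.neg_apply]; linarith)
    exact ⟨A, m, Or.inr (by rw [← hA, neg_neg])⟩

end Fermat.Agent.Multiplier
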