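/-
A Poincare type series of weight 6 with a simple pole on the orbit of `2 i`.
-/
import Fermat.Agent.Multiplier.Basic
import Mathlib.NumberTheory.ModularForms.EisensteinSeries.Summable
import Mathlib.Analysis.Complex.LocallyUniformLimit
import Mathlib.Analysis.Meromorphic.NormalForm

set_option autoImplicit false

open scoped MatrixGroups Topology
open UpperHalfPlane Filter

namespace Fermat.Agent.Multiplier

/-- The numerator `a z + b`. -/
def nfac (γ : SL(2, ℤ)) (z : ℂ) : ℂ := (γ 0 0 : ℂ) * z + (γ 0 1 : ℂ)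

/-- The summand `j(γ, z) ^ (-6) φ(γ z)` with `φ w = 1 / ((w - 2i) (w + i) ^ 5)`. -/
noncomputable def term (γ : SL(2, ℤ)) (z : ℂ) : ℂ :=
  ((nfac γ z - 2 * Complex.I * jfac γ z) * (nfac γ z + Complex.I * jfac γ z) ^ 5)⁻¹

/-- The series `∑ ψ γ · term γ`. -/
noncomputable def series (ψ : SL(2, ℤ) → ℂ) (z : ℂ) : ℂ := ∑' γ : SL(2, ℤ), ψ γ * term γ z

/-- The weight attached to `γ` in the majorising series. -/
noncomputable def wt (γ : SL(2, ℤ)) : ℝ :=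
  ‖(γ : Matrix (Fin 2) (Fin 2) ℤ) 0‖ ^ (-(5 / 2) : ℝ) *
    ‖(γ : Matrix (Fin 2) (Fin 2) ℤ) 1‖ ^ (-(5 / 2) : ℝ)

theorem summable_wt : Summable wt := by
  have h := EisensteinSeries.summable_one_div_norm_rpow (k := 5 / 2) (by norm_num)
  refine (h.mul_of_nonneg h (fun x => by positivity) (fun x => by positivity)).comp_injective
    (i := fun γ : SL(2, ℤ) => ((γ : Matrix (Fin 2) (Fin 2) ℤ) 0, (γ : Matrix (Fin 2) (Fin 2) ℤ) 1))
    fun γ δ h => ?_
  simp only [Prod.mk.injEq] at h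
  ext i j
  fin_cases i
  · exact congrFun h.1 j
  · exact congrFun h.2 j

theorem wt_nonneg (γ : SL(2, ℤ)) : 0 ≤ wt γ := by unfold wt; positivity

theorem row_ne_zero (γ : SL(2, ℤ)) (i : Fin 2) : (γ : Matrix (Fin 2) (Fin 2) ℤ) i ≠ 0 := by
  intro h
  have := γ.2
  rw [Matrix.det_fin_two] at this
  have h0 := congrFun h 0
  have h1 := congrFun h 1
  fin_cases i <;> simp_all

theorem r_mul_norm_row_le_nfac (γ : SL(2, ℤ)) (τ : ℍ) :
    EisensteinSeries.r τ * ‖(γ : Matrix (Fin 2) (Fin 2) ℤ) 0‖ ≤ ‖nfac γ τ‖ :=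
  EisensteinSeries.r_mul_max_le τ (row_ne_zero γ 0)

theorem r_mul_norm_row_le_jfac (γ : SL(2, ℤ)) (τ : ℍ) :
    EisensteinSeries.r τ * ‖(γ : Matrix (Fin 2) (Fin 2) ℤ) 1‖ ≤ ‖jfac γ τ‖ :=
  EisensteinSeries.r_mul_max_le τ (row_ne_zero γ 1)

/-- The basic identity behind all bounds. -/
theorem normSq_nfac_add (γ : SL(2, ℤ)) (z : ℂ) (c : ℝ) :
    Complex.normSq (nfac γ z + Complex.I * c * jfac γ z) =
      Complex.normSq (nfac γ z) + c ^ 2 * Complex.normSq (jfac γ z) + 2 * c * z.im := by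
  have hd : ((γ 0 0 : ℝ) * γ 1 1 - γ 0 1 * γ 1 0) = 1 := by
    have h := γ.2
    rw [Matrix.det_fin_two] at h
    exact_mod_cast h
  simp only [nfac, jfac, Complex.normSq_apply, Complex.add_re, Complex.add_im, Complex.mul_re,
    Complex.mul_im, Complex.I_re, Complex.I_im, Complex.ofReal_re, Complex.ofReal_im,
    Complex.intCast_re, Complex.intCast_im]
  linear_combination (2 * c * z.im) * hd

theorem sq_norm_nfac_sub (γ : SL(2, ℤ)) (z : ℂ) :
    ‖nfac γ z - 2 * Complex.I * jfac γ z‖ ^ 2 =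
      ‖nfac γ z‖ ^ 2 + 4 * ‖jfac γ z‖ ^ 2 - 4 * z.im := by
  have h := normSq_nfac_add γ z (-2)
  simp only [Complex.sq_norm]
  rw [show nfac γ z - 2 * Complex.I * jfac γ z =
    nfac γ z + Complex.I * ((-2 : ℝ) : ℂ) * jfac γ z by push_cast; ring, h]
  ring

theorem norm_nfac_le (γ : SL(2, ℤ)) {z : ℂ} (hz : z ∈ H) :
    ‖nfac γ z‖ ≤ ‖nfac γ z + Complex.I * jfac γ z‖ ∧
      ‖jfac γ z‖ ≤ ‖nfac γ z + Complex.I * jfac γ z‖ := by
  have h := normSq_nfac_add γ z 1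
  rw [Complex.ofReal_one, mul_one, Complex.normSq_eq_norm_sq, Complex.normSq_eq_norm_sq,
    Complex.normSq_eq_norm_sq] at h
  have hy : 0 < z.im := hz
  constructor <;> refine le_of_sq_le_sq ?_ (norm_nonneg _)
  · nlinarith [sq_nonneg ‖jfac γ z‖]
  · nlinarith [sq_nonneg ‖nfac γ z‖]

theorem nfac_add_ne_zero (γ : SL(2, ℤ)) {z : ℂ} (hz : z ∈ H) :
    nfac γ z + Complex.I * jfac γ z ≠ 0 := fun h => by
  have h2 := (norm_nfac_le γ hz).2
  rw [h, norm_zero] at h2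
  exact jfac_ne_zero γ hz (norm_le_zero_iff.1 h2)

/-- The majorisation of a term. -/
theorem norm_term_le (γ : SL(2, ℤ)) (τ : ℍ) {r₀ : ℝ} (hr₀ : 0 < r₀)
    (hr : r₀ ≤ EisensteinSeries.r τ)
    (h1 : 1 ≤ ‖nfac γ (τ : ℂ) - 2 * Complex.I * jfac γ (τ : ℂ)‖) :
    ‖term γ (τ : ℂ)‖ ≤ r₀ ^ (-(5 : ℝ)) * wt γ := by
  set a := ‖(γ : Matrix (Fin 2) (Fin 2) ℤ) 0‖ with ha
  set b := ‖(γ : Matrix (Fin 2) (Fin 2) ℤ) 1‖ with hb
  have ha0 : 0 < a := norm_pos_iff.2 (row_ne_zero γ 0)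
  have hb0 : 0 < b := norm_pos_iff.2 (row_ne_zero γ 1)
  set M := ‖nfac γ (τ : ℂ) + Complex.I * jfac γ (τ : ℂ)‖
  obtain ⟨hA, hB⟩ := norm_nfac_le γ (show (τ : ℂ) ∈ H from τ.coe_im_pos)
  have hMa : r₀ * a ≤ M :=
    (mul_le_mul_of_nonneg_right hr ha0.le).trans ((r_mul_norm_row_le_nfac γ τ).trans hA)
  have hMb : r₀ * b ≤ M :=
    (mul_le_mul_of_nonneg_right hr hb0.le).trans ((r_mul_norm_row_le_jfac γ τ).trans hB)
  have hM : 0 < M := lt_of_lt_of_le (mul_pos hr₀ ha0) hMa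
  have key : (r₀ * a) ^ (5 / 2 : ℝ) * (r₀ * b) ^ (5 / 2 : ℝ) ≤ M ^ 5 := by
    calc (r₀ * a) ^ (5 / 2 : ℝ) * (r₀ * b) ^ (5 / 2 : ℝ)
        ≤ M ^ (5 / 2 : ℝ) * M ^ (5 / 2 : ℝ) := by gcongr
      _ = M ^ 5 := by rw [← Real.rpow_add hM, ← Real.rpow_natCast]; norm_num
  have hrhs : r₀ ^ (-(5 : ℝ)) * wt γ = ((r₀ * a) ^ (5 / 2 : ℝ) * (r₀ * b) ^ (5 / 2 : ℝ))⁻¹ := by
    rw [wt, ← ha, ← hb, Real.mul_rpow hr₀.le ha0.le, Real.mul_rpow hr₀.le hb0.le,
      Real.rpow_neg hr₀.le, Real.rpow_neg ha0.le, Real.rpow_neg hb0.le,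
      show (5 : ℝ) = 5 / 2 + 5 / 2 by norm_num, Real.rpow_add hr₀]
    norm_num
    ring
  rw [hrhs, term, norm_inv, norm_mul, norm_pow]
  refine inv_anti₀ (by positivity) (key.trans ?_)
  exact le_mul_of_one_le_left (by positivity) h1

/-- Uniform analyticity and bound of a tail of the series. -/
theorem tail_spec {U : Set ℂ} (hU : IsOpen U) {r₀ : ℝ} (hr₀ : 0 < r₀) (hUH : U ⊆ H)
    (hr : ∀ τ : ℍ, (τ : ℂ) ∈ U → r₀ ≤ EisensteinSeries.r τ)
    (S : Set (SL(2, ℤ)))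
    (hS : ∀ γ ∈ S, ∀ z ∈ U, 1 ≤ ‖nfac γ z - 2 * Complex.I * jfac γ z‖)
    (ψ : SL(2, ℤ) → ℂ) (hψ : ∀ γ, ‖ψ γ‖ ≤ 1) :
    (AnalyticOnNhd ℂ (fun z => ∑' γ : S, ψ γ * term γ z) U) ∧
      (∀ z ∈ U, Summable fun γ : S => ψ γ * term γ z) ∧
      ∀ z ∈ U, ‖∑' γ : S, ψ γ * term γ z‖ ≤ r₀ ^ (-(5 : ℝ)) * ∑' γ, wt γ := by
  have hb : ∀ (γ : S), ∀ z ∈ U, ‖ψ γ * term γ z‖ ≤ r₀ ^ (-(5 : ℝ)) * wt γ := by
    intro γ z hz
    rw [norm_mul]
    refine (mul_le_of_le_one_left (norm_nonneg _) (hψ _)).trans ?_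
    exact norm_term_le γ ⟨z, hUH hz⟩ hr₀ (hr ⟨z, hUH hz⟩ hz) (hS γ γ.2 z hz)
  have hsum : Summable fun γ : S => r₀ ^ (-(5 : ℝ)) * wt γ :=
    (summable_wt.comp_injective Subtype.val_injective).mul_left _
  refine ⟨?_, fun z hz => Summable.of_norm_bounded hsum fun γ => hb γ z hz, fun z hz => ?_⟩
  · refine DifferentiableOn.analyticOnNhd ?_ hU
    refine Complex.differentiableOn_tsum_of_summable_norm hsum (fun γ => ?_) hU hb
    intro z hz
    refine (DifferentiableAt.mul (differentiableAt_const _) ?_).differentiableWithinAt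
    have h1 : nfac (γ : SL(2, ℤ)) z - 2 * Complex.I * jfac γ z ≠ 0 := by
      intro h
      have := hS γ γ.2 z hz
      rw [h, norm_zero] at this
      linarith
    have h2 := mul_ne_zero h1 (pow_ne_zero 5 (nfac_add_ne_zero (γ : SL(2, ℤ)) (hUH hz)))
    unfold term nfac jfac at *
    fun_prop (disch := assumption)
  · calc ‖∑' γ : S, ψ γ * term γ z‖ ≤ ∑' γ : S, r₀ ^ (-(5 : ℝ)) * wt γ :=
          tsum_of_norm_bounded hsum.hasSum fun γ => hb γ z hz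
      _ = r₀ ^ (-(5 : ℝ)) * ∑' γ : S, wt γ := tsum_mul_left
      _ ≤ r₀ ^ (-(5 : ℝ)) * ∑' γ, wt γ := by
          gcongr
          exact summable_wt.tsum_subtype_le wt S wt_nonneg

/-- A neighbourhood of a point of `H` and a finite exceptional set. -/
theorem exists_nhds_finite (z₀ : ℂ) (hz₀ : z₀ ∈ H) :
    ∃ U : Set ℂ, IsOpen U ∧ z₀ ∈ U ∧ U ⊆ H ∧ ∃ r₀ : ℝ, 0 < r₀ ∧
      (∀ τ : ℍ, (τ : ℂ) ∈ U → r₀ ≤ EisensteinSeries.r τ) ∧
      ∃ F : Finset (SL(2, ℤ)),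
        ∀ γ ∉ F, ∀ z ∈ U, 1 ≤ ‖nfac γ z - 2 * Complex.I * jfac γ z‖ := by
  have hy : (0 : ℝ) < z₀.im := hz₀
  have hB : (0 : ℝ) < z₀.im / 2 := by linarith
  set A := |z₀.re| + 1
  set U : Set ℂ := {z | |z.re| < A} ∩ {z | z₀.im / 2 < z.im} ∩ {z | z.im < 2 * z₀.im}
  have hUo : IsOpen U :=
    ((isOpen_lt (continuous_abs.comp Complex.continuous_re) continuous_const).inter
      (isOpen_lt continuous_const Complex.continuous_im)).inter
      (isOpen_lt Complex.continuous_im continuous_const)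
  have hUH : U ⊆ H := fun z hz => show 0 < z.im from lt_trans hB hz.1.2
  set r₀ := EisensteinSeries.r ⟨⟨A, z₀.im / 2⟩, hB⟩
  have hr : ∀ τ : ℍ, (τ : ℂ) ∈ U → r₀ ≤ EisensteinSeries.r τ := fun τ hτ =>
    EisensteinSeries.r_lower_bound_on_verticalStrip _ hB
      ⟨by simpa using le_of_lt hτ.1.1, by simpa using le_of_lt hτ.1.2⟩
  have hr₀ : 0 < r₀ := EisensteinSeries.r_pos _
  set R := Real.sqrt ((1 + 8 * z₀.im) / r₀ ^ 2)
  have hfin : {γ : SL(2, ℤ) | (γ : Matrix (Fin 2) (Fin 2) ℤ) 0 ∈ Metric.closedBall 0 R ∧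
      (γ : Matrix (Fin 2) (Fin 2) ℤ) 1 ∈ Metric.closedBall 0 R}.Finite := by
    have hb : (Metric.closedBall (0 : Fin 2 → ℤ) R).Finite :=
      (isCompact_closedBall _ _).finite_of_discrete
    refine Set.Finite.of_finite_image (f := fun γ : SL(2, ℤ) =>
        ((γ : Matrix (Fin 2) (Fin 2) ℤ) 0, (γ : Matrix (Fin 2) (Fin 2) ℤ) 1))
      ((hb.prod hb).subset ?_) ?_
    · rintro _ ⟨γ, hγ, rfl⟩
      exact hγ
    · intro γ _ δ _ h
      simp only [Prod.mk.injEq] at h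
      ext i j
      fin_cases i
      · exact congrFun h.1 j
      · exact congrFun h.2 j
  refine ⟨U, hUo, ⟨⟨by simp [A], by show z₀.im / 2 < z₀.im; linarith⟩,
    by show z₀.im < 2 * z₀.im; linarith⟩, hUH, r₀, hr₀, hr, hfin.toFinset, fun γ hγ z hz => ?_⟩
  rw [Set.Finite.mem_toFinset, Set.mem_ofPred_eq, mem_closedBall_zero_iff,
    mem_closedBall_zero_iff, not_and_or, not_le, not_le] at hγ
  have hsq := sq_norm_nfac_sub γ z
  have h2 : z.im < 2 * z₀.im := hz.2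
  have hA := r_mul_norm_row_le_nfac γ ⟨z, hUH hz⟩
  have hJ := r_mul_norm_row_le_jfac γ ⟨z, hUH hz⟩
  have hr' := hr ⟨z, hUH hz⟩ hz
  have hR : r₀ ^ 2 * R ^ 2 = 1 + 8 * z₀.im := by
    rw [Real.sq_sqrt (by positivity), mul_div_cancel₀ _ (by positivity)]
  have key : 1 + 8 * z₀.im < ‖nfac γ z‖ ^ 2 + 4 * ‖jfac γ z‖ ^ 2 := by
    rw [← hR, ← mul_pow]
    rcases hγ with h | h
    · have hlt : r₀ * R < ‖nfac γ z‖ :=
        lt_of_lt_of_le (mul_lt_mul_of_pos_left h hr₀)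
          ((mul_le_mul_of_nonneg_right hr' (norm_nonneg _)).trans hA)
      have : 0 ≤ r₀ * R := by positivity
      nlinarith [sq_nonneg ‖jfac γ z‖]
    · have hlt : r₀ * R < ‖jfac γ z‖ :=
        lt_of_lt_of_le (mul_lt_mul_of_pos_left h hr₀)
          ((mul_le_mul_of_nonneg_right hr' (norm_nonneg _)).trans hJ)
      have : 0 ≤ r₀ * R := by positivity
      nlinarith [sq_nonneg ‖nfac γ z‖]
  exact (one_le_sq_iff₀ (norm_nonneg _)).1 (by rw [hsq]; linarith)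

theorem summable_series (ψ : SL(2, ℤ) → ℂ) (hψ : ∀ γ, ‖ψ γ‖ ≤ 1) {z : ℂ} (hz : z ∈ H) :
    Summable fun γ => ψ γ * term γ z := by
  obtain ⟨U, hUo, hzU, hUH, r₀, hr₀, hr, F, hF⟩ := exists_nhds_finite z hz
  exact F.summable_compl_iff.1
    ((tail_spec hUo hr₀ hUH hr _ hF ψ hψ).2.1 z hzU)

theorem meromorphicAt_term (γ : SL(2, ℤ)) (z : ℂ) : MeromorphicAt (term γ) z := by
  unfold term nfac jfac
  fun_prop

/-- The series is meromorphic on `H`. -/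
theorem meromorphicOn_series (ψ : SL(2, ℤ) → ℂ) (hψ : ∀ γ, ‖ψ γ‖ ≤ 1) :
    MeromorphicOn (series ψ) H := by
  intro z hz
  obtain ⟨U, hUo, hzU, hUH, r₀, hr₀, hr, F, hF⟩ := exists_nhds_finite z hz
  obtain ⟨ha, hs, -⟩ := tail_spec hUo hr₀ hUH hr {γ | γ ∉ F} hF ψ hψ
  have he : series ψ =ᶠ[𝓝 z] fun w => (∑ γ ∈ F, ψ γ * term γ w) +
      ∑' γ : {γ | γ ∉ F}, ψ γ * term γ w := by
    filter_upwards [hUo.mem_nhds hzU] with w hw
    exact ((summable_series ψ hψ (hUH hw)).sum_add_tsum_compl).symm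
  refine MeromorphicAt.congr ?_ (he.symm.filter_mono nhdsWithin_le_nhds)
  refine MeromorphicAt.add ?_ (ha z hzU).meromorphicAt
  exact MeromorphicAt.fun_sum (fun γ _ => (MeromorphicAt.const _ z).mul (meromorphicAt_term γ z))

theorem term_act (γ δ : SL(2, ℤ)) {z : ℂ} (hz : z ∈ H) :
    term γ (act δ z) = jfac δ z ^ 6 * term (γ * δ) z := by
  have hj := jfac_ne_zero δ hz
  have h1 : nfac (γ * δ) z = nfac γ (act δ z) * jfac δ z := by
    simp only [nfac, jfac, act, Matrix.SpecialLinearGroup.coe_mul, Matrix.mul_apply,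
      Fin.sum_univ_two] at hj ⊢
    push_cast
    field_simp
    ring
  rw [term, term, h1, jfac_mul γ δ hz]
  set A := nfac γ (act δ z)
  set B := jfac γ (act δ z)
  rw [show A * jfac δ z - 2 * Complex.I * (B * jfac δ z) =
      (A - 2 * Complex.I * B) * jfac δ z by ring,
    show A * jfac δ z + Complex.I * (B * jfac δ z) = (A + Complex.I * B) * jfac δ z by ring,
    mul_pow, show (A - 2 * Complex.I * B) * jfac δ z * ((A + Complex.I * B) ^ 5 * jfac δ z ^ 5) =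
      jfac δ z ^ 6 * ((A - 2 * Complex.I * B) * (A + Complex.I * B) ^ 5) by ring,
    mul_inv (jfac δ z ^ 6), mul_inv_cancel_left₀ (pow_ne_zero _ hj)]

/-- The weight 6 transformation of the series. -/
theorem series_act (ψ : SL(2, ℤ) → ℂ) (δ : SL(2, ℤ)) {z : ℂ} (hz : z ∈ H) :
    series ψ (act δ z) = jfac δ z ^ 6 * series (fun γ => ψ (γ * δ⁻¹)) z := by
  unfold series
  rw [← tsum_mul_left, ← (Equiv.mulRight δ).tsum_eq
    (fun γ => jfac δ z ^ 6 * (ψ (γ * δ⁻¹) * term γ z))]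
  refine tsum_congr fun γ => ?_
  rw [Equiv.coe_mulRight, mul_inv_cancel_right, term_act γ δ hz]
  ring

theorem one_le_norm_of_im_ge (γ : SL(2, ℤ)) {z : ℂ} (hz : 5 ≤ z.im) :
    1 ≤ ‖nfac γ z - 2 * Complex.I * jfac γ z‖ := by
  refine (one_le_sq_iff₀ (norm_nonneg _)).1 ?_
  rw [sq_norm_nfac_sub]
  have hA : |(γ 0 0 : ℝ)| * z.im ≤ ‖nfac γ z‖ := by
    refine le_trans (le_of_eq ?_) (Complex.abs_im_le_norm _)
    simp [nfac, abs_mul, abs_of_nonneg (show (0 : ℝ) ≤ z.im by linarith)]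
  have hJ : |(γ 1 0 : ℝ)| * z.im ≤ ‖jfac γ z‖ := by
    refine le_trans (le_of_eq ?_) (Complex.abs_im_le_norm _)
    simp [jfac, abs_mul, abs_of_nonneg (show (0 : ℝ) ≤ z.im by linarith)]
  by_cases hc : γ 1 0 = 0
  · have ha : γ 0 0 ≠ 0 := by
      intro ha
      have := γ.2
      rw [Matrix.det_fin_two, ha, hc] at this
      simp at this
    have h1 : (1 : ℝ) ≤ |(γ 0 0 : ℝ)| := by exact_mod_cast Int.one_le_abs ha
    have : z.im ≤ ‖nfac γ z‖ := by nlinarith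
    nlinarith [sq_nonneg ‖jfac γ z‖]
  · have h1 : (1 : ℝ) ≤ |(γ 1 0 : ℝ)| := by exact_mod_cast Int.one_le_abs hc
    have : z.im ≤ ‖jfac γ z‖ := by nlinarith
    nlinarith [sq_nonneg ‖nfac γ z‖]

/-- Uniform bound and analyticity above height 5 in a strip. -/
theorem series_strip (ψ : SL(2, ℤ) → ℂ) (hψ : ∀ γ, ‖ψ γ‖ ≤ 1) (A : ℝ) :
    AnalyticOnNhd ℂ (series ψ) {z | |z.re| < A ∧ 5 < z.im} ∧
      ∀ z : ℂ, |z.re| < A → 5 < z.im →
        ‖series ψ z‖ ≤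
          EisensteinSeries.r ⟨⟨A, 5⟩, (by norm_num : (0 : ℝ) < 5)⟩ ^ (-(5 : ℝ)) * ∑' γ, wt γ := by
  set U : Set ℂ := {z | |z.re| < A ∧ 5 < z.im}
  have hUo : IsOpen U :=
    (isOpen_lt (continuous_abs.comp Complex.continuous_re) continuous_const).inter
      (isOpen_lt continuous_const Complex.continuous_im)
  have hUH : U ⊆ H := fun z hz => show 0 < z.im from lt_trans (by norm_num) hz.2
  have hr : ∀ τ : ℍ, (τ : ℂ) ∈ U →
      EisensteinSeries.r ⟨⟨A, 5⟩, (by norm_num : (0 : ℝ) < 5)⟩ ≤ EisensteinSeries.r τ := fun τ hτ =>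
    EisensteinSeries.r_lower_bound_on_verticalStrip _ (by norm_num)
      ⟨by simpa using le_of_lt hτ.1, by simpa using le_of_lt hτ.2⟩
  obtain ⟨ha, -, hb⟩ := tail_spec hUo (EisensteinSeries.r_pos _) hUH hr Set.univ
    (fun γ _ z hz => one_le_norm_of_im_ge γ hz.2.le) ψ hψ
  have he : ∀ z, (∑' γ : (Set.univ : Set (SL(2, ℤ))), ψ γ * term γ z) = series ψ z := fun z =>
    tsum_univ fun γ => ψ γ * term γ z
  simp only [he] at ha hb
  exact ⟨ha, fun z h1 h2 => hb z ⟨h1, h2⟩⟩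

theorem analyticAt_series (ψ : SL(2, ℤ) → ℂ) (hψ : ∀ γ, ‖ψ γ‖ ≤ 1) {z : ℂ} (hz : 5 < z.im) :
    AnalyticAt ℂ (series ψ) z :=
  (series_strip ψ hψ (|z.re| + 1)).1 z ⟨lt_add_one _, hz⟩

theorem jfac_T_zpow (m : ℤ) (z : ℂ) : jfac (ModularGroup.T ^ m) z = 1 := by
  simp [jfac, ModularGroup.coe_T_zpow]

theorem act_T_zpow' (m : ℤ) (z : ℂ) : act (ModularGroup.T ^ m) z = z + m := by
  simp [act, ModularGroup.coe_T_zpow]

/-- The series is bounded above height 5, uniformly in the coefficients. -/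
theorem exists_bound_series :
    ∃ C : ℝ, ∀ (ψ : SL(2, ℤ) → ℂ), (∀ γ, ‖ψ γ‖ ≤ 1) → ∀ z : ℂ, 5 < z.im → ‖series ψ z‖ ≤ C := by
  refine ⟨EisensteinSeries.r ⟨⟨2, 5⟩, (by norm_num : (0 : ℝ) < 5)⟩ ^ (-(5 : ℝ)) * ∑' γ, wt γ,
    fun ψ hψ z hz => ?_⟩
  set m : ℤ := ⌊z.re⌋
  have hw : z - m ∈ H := show 0 < (z - (m : ℂ)).im by simp; linarith
  have h := series_act ψ (ModularGroup.T ^ m) hw
  rw [jfac_T_zpow, one_pow, one_mul, act_T_zpow', sub_add_cancel] at h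
  rw [h]
  refine (series_strip _ (fun γ => hψ _) 2).2 (z - m) ?_ (by simpa using hz)
  rw [Complex.sub_re, Complex.intCast_re, abs_lt]
  constructor <;> linarith [Int.floor_le z.re, Int.lt_floor_add_one z.re]

/-- Only `± 1` have a pole at `2i`. -/
theorem eq_or_eq_neg_of_pole (γ : SL(2, ℤ))
    (h : nfac γ (2 * Complex.I) - 2 * Complex.I * jfac γ (2 * Complex.I) = 0) :
    γ = 1 ∨ γ = -1 := by
  have hre := congrArg Complex.re h
  have him := congrArg Complex.im h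
  simp [nfac, jfac] at hre him
  have h1 : γ 0 1 + 4 * γ 1 0 = 0 := by exact_mod_cast (by linarith : (γ 0 1 : ℝ) + 4 * γ 1 0 = 0)
  have h2 : γ 0 0 = γ 1 1 := by exact_mod_cast (by linarith : (γ 0 0 : ℝ) = γ 1 1)
  have hd := γ.2
  rw [Matrix.det_fin_two, show γ 0 1 = -4 * γ 1 0 by linarith, ← h2] at hd
  have hc : γ 1 0 = 0 := by
    by_contra hc
    have : 0 < γ 1 0 * γ 1 0 := mul_self_pos.2 hc
    nlinarith [mul_self_nonneg (γ 0 0)]
  have hb : γ 0 1 = 0 := by linarith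
  rw [hc] at hd
  rcases Int.eq_one_or_neg_one_of_mul_eq_one (show γ 0 0 * γ 0 0 = 1 by linarith) with ha | ha
  · left
    ext i j
    fin_cases i <;> fin_cases j <;> simp [hb, hc, ha, ← h2]
  · right
    ext i j
    fin_cases i <;> fin_cases j <;> simp [hb, hc, ha, ← h2]

/-- The series is not identically zero. -/
theorem meromorphicOrderAt_series_ne_top (ψ : SL(2, ℤ) → ℂ) (hψ : ∀ γ, ‖ψ γ‖ ≤ 1)
    (h1 : ψ 1 + ψ (-1) ≠ 0) :
    meromorphicOrderAt (series ψ) (2 * Complex.I) ≠ ⊤ := by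
  classical
  set z₀ : ℂ := 2 * Complex.I
  have hz₀ : z₀ ∈ H := show 0 < z₀.im by simp [z₀]
  obtain ⟨U, hUo, hzU, hUH, r₀, hr₀, hr, F, hF⟩ := exists_nhds_finite z₀ hz₀
  set F' : Finset (SL(2, ℤ)) := insert 1 (insert (-1) F) with hF'
  obtain ⟨ha, hs, -⟩ := tail_spec hUo hr₀ hUH hr {γ | γ ∉ F'}
    (fun γ hγ => hF γ fun h => hγ (by simp [hF', h])) ψ hψ
  set rest : ℂ → ℂ := fun w => (∑ γ ∈ (F'.erase 1).erase (-1), ψ γ * term γ w) +
    ∑' γ : {γ | γ ∉ F'}, ψ γ * term γ w with hrest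
  have hra : AnalyticAt ℂ rest z₀ := by
    refine AnalyticAt.add (Finset.analyticAt_fun_sum _ fun γ hγ => analyticAt_const.mul ?_)
      (ha z₀ hzU)
    simp only [Finset.mem_erase] at hγ
    have hne : nfac γ z₀ - 2 * Complex.I * jfac γ z₀ ≠ 0 := fun h =>
      (eq_or_eq_neg_of_pole γ h).elim hγ.2.1 hγ.1
    have hm := mul_ne_zero hne (pow_ne_zero 5 (nfac_add_ne_zero γ hz₀))
    unfold term nfac jfac at *
    fun_prop (disch := assumption)
  intro htop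
  rw [meromorphicOrderAt_eq_top_iff] at htop
  have hone : (-1 : SL(2, ℤ)) ≠ 1 := by
    intro h
    have := congrArg (fun γ : SL(2, ℤ) => γ 0 0) h
    simp at this
  have heq : ∀ᶠ w in 𝓝[≠] z₀, (ψ 1 + ψ (-1)) + (w - z₀) * (w + Complex.I) ^ 5 * rest w = 0 := by
    filter_upwards [htop, nhdsWithin_le_nhds (hUo.mem_nhds hzU), self_mem_nhdsWithin]
      with w hw hwU hwne
    have hsplit : series ψ w = ψ 1 * term 1 w + ψ (-1) * term (-1) w + rest w := by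
      rw [hrest, series, ← (summable_series ψ hψ (hUH hwU)).sum_add_tsum_compl (s := F'),
        ← Finset.add_sum_erase F' _ (show (1 : SL(2, ℤ)) ∈ F' by simp [hF']),
        ← Finset.add_sum_erase (F'.erase 1) _
          (show (-1 : SL(2, ℤ)) ∈ F'.erase 1 by simp [hF', hone])]
      simp only [add_assoc]
      rfl
    have hwi : w + Complex.I ≠ 0 := fun h => by
      have := congrArg Complex.im h
      have := hUH hwU
      simp [H] at *
      linarith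
    have hws : w - z₀ ≠ 0 := sub_ne_zero.2 hwne
    rw [hsplit] at hw
    have t1 : term 1 w = ((w - z₀) * (w + Complex.I) ^ 5)⁻¹ := by
      simp [term, nfac, jfac, z₀]
    have t2 : term (-1) w = ((w - z₀) * (w + Complex.I) ^ 5)⁻¹ := by
      simp [term, nfac, jfac, z₀, Matrix.SpecialLinearGroup.coe_neg]
      rw [show -w + 2 * Complex.I = -(w - 2 * Complex.I) by ring,
        show -w + -Complex.I = -(w + Complex.I) by ring, Odd.neg_pow (by decide), inv_neg, inv_neg]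
      ring
    rw [t1, t2] at hw
    have hm := mul_ne_zero hws (pow_ne_zero 5 hwi)
    field_simp at hw
    linear_combination hw
  have hlim : Tendsto (fun w => (ψ 1 + ψ (-1)) + (w - z₀) * (w + Complex.I) ^ 5 * rest w) (𝓝[≠] z₀)
      (𝓝 ((ψ 1 + ψ (-1)) + (z₀ - z₀) * (z₀ + Complex.I) ^ 5 * rest z₀)) := by
    refine Tendsto.mono_left ?_ nhdsWithin_le_nhds
    exact (continuousAt_const.add
      (((continuousAt_id.sub continuousAt_const).mul
        ((continuousAt_id.add continuousAt_const).pow 5)).mul hra.continuousAt)).tendsto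
  have := tendsto_nhds_unique (hlim.congr' heq) tendsto_const_nhds
  simp only [sub_self, zero_mul, add_zero] at this
  exact h1 this

end Fermat.Agent.Multiplier
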