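/-
(2) Every finite order character killing parabolic elements is the multiplier of a nonzero
meromorphic function which is meromorphic at the cusps.
-/
import Fermat.Agent.Multiplier.Series
import Fermat.Agent.Multiplier.Root
import Mathlib.GroupTheory.Index
import Mathlib.NumberTheory.ModularForms.EisensteinSeries.QExpansion

set_option autoImplicit false

open scoped MatrixGroups Topology
open UpperHalfPlane Filter

namespace Fermat.Agent.Multiplier

/-- The coefficients of the series: `χ⁻¹` extended by zero. -/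
noncomputable def coeff (Γ : Subgroup SL(2, ℤ)) (χ : Γ →* ℂˣ) (γ : SL(2, ℤ)) : ℂ := by
  classical
  exact if h : γ ∈ Γ then ((χ ⟨γ, h⟩)⁻¹ : ℂˣ) else 0

theorem norm_coeff_le {Γ : Subgroup SL(2, ℤ)} {χ : Γ →* ℂˣ} {n : ℕ} (hn : 0 < n)
    (hχ : ∀ γ, χ γ ^ n = 1) (γ : SL(2, ℤ)) : ‖coeff Γ χ γ‖ ≤ 1 := by
  unfold coeff
  split_ifs with h
  · refine le_of_eq ((pow_eq_one_iff_of_nonneg (norm_nonneg _) hn.ne').1 ?_)
    rw [← norm_pow, ← Units.val_pow_eq_pow_val, inv_pow, hχ, inv_one, Units.val_one, norm_one]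
  · simp

theorem coeff_mul_inv {Γ : Subgroup SL(2, ℤ)} {χ : Γ →* ℂˣ} (δ : Γ) (γ : SL(2, ℤ)) :
    coeff Γ χ (γ * (δ : SL(2, ℤ))⁻¹) = (χ δ : ℂ) * coeff Γ χ γ := by
  unfold coeff
  by_cases h : γ ∈ Γ
  · rw [dif_pos h, dif_pos (mul_mem h (inv_mem δ.2)),
      show (⟨γ * (δ : SL(2, ℤ))⁻¹, mul_mem h (inv_mem δ.2)⟩ : Γ) = ⟨γ, h⟩ * δ⁻¹ from rfl,
      map_mul, map_inv, mul_inv_rev, inv_inv, Units.val_mul]
  · rw [dif_neg h, dif_neg fun h' => h (by simpa using mul_mem h' δ.2), mul_zero]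

/-- The Eisenstein series of weight 6 as a function on `ℂ`. -/
noncomputable def e6 (z : ℂ) : ℂ := (ModularForm.E₆ ∘ ofComplex) z

theorem analyticAt_e6 {z : ℂ} (hz : z ∈ H) : AnalyticAt ℂ e6 z :=
  DifferentiableOn.analyticAt
    (UpperHalfPlane.mdifferentiable_iff.1 (ModularFormClass.holo ModularForm.E₆))
    (isOpen_H.mem_nhds hz)

theorem e6_act (γ : SL(2, ℤ)) {z : ℂ} (hz : z ∈ H) : e6 (act γ z) = jfac γ z ^ 6 * e6 z := by
  have hmem : (γ : GL (Fin 2) ℝ) ∈ 𝒮ℒ := ⟨γ, rfl⟩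
  have h := SlashInvariantForm.slash_action_eqn'' ModularForm.E₆ hmem ⟨z, hz⟩
  rw [e6, e6, Function.comp_apply, Function.comp_apply, ofComplex_apply_of_im_pos hz,
    ofComplex_apply_of_im_pos (act_mem hz),
    show (⟨act γ z, act_mem hz⟩ : ℍ) = γ • (⟨z, hz⟩ : ℍ) from
      UpperHalfPlane.ext (coe_smul_eq_act γ ⟨z, hz⟩).symm]
  rw [ModularGroup.sl_moeb]
  refine h.trans ?_
  rw [ModularGroup.denom_apply]
  rfl

theorem exists_e6_ge : ∃ Y : ℝ, ∀ z : ℂ, Y < z.im → (1 / 2 : ℝ) ≤ ‖e6 z‖ := by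
  have hk : (3 : ℕ) ≤ 6 := by norm_num
  have ha := ModularFormClass.analyticAt_cuspFunction_zero (ModularForm.E hk) one_pos
    one_mem_strictPeriods_SL
  have h0 : cuspFunction (1 : ℝ) (ModularForm.E hk) 0 = 1 := by
    have h := EisensteinSeries.E_qExpansion_coeff_zero hk (by decide)
    rwa [qExpansion_coeff, Nat.factorial_zero, Nat.cast_one, inv_one, one_mul,
      iteratedDeriv_zero] at h
  have ht : Tendsto (fun τ : ℍ => ModularForm.E hk τ) atImInfty (𝓝 1) := by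
    have h := ha.continuousAt.tendsto.comp (qParam_tendsto_atImInfty one_pos)
    rw [h0] at h
    exact h.congr fun τ => SlashInvariantFormClass.eq_cuspFunction _ τ one_mem_strictPeriods_SL one_ne_zero
  have hev : ∀ᶠ τ : ℍ in atImInfty, (1 / 2 : ℝ) ≤ ‖ModularForm.E hk τ‖ := by
    refine ht.norm.eventually_const_le ?_
    norm_num
  obtain ⟨Y, hY⟩ := (atImInfty_mem _).1 hev
  refine ⟨max Y 0, fun z hz => ?_⟩
  have hz0 : 0 < z.im := lt_of_le_of_lt (le_max_right _ _) hz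
  rw [e6, Function.comp_apply, ofComplex_apply_of_im_pos hz0]
  exact hY ⟨z, hz0⟩ (le_of_lt (lt_of_le_of_lt (le_max_left _ _) hz))

/-- The quotient of the series by `E₆`, before normalisation. -/
noncomputable def quot (ψ : SL(2, ℤ) → ℂ) (z : ℂ) : ℂ := series ψ z / e6 z

theorem quot_act (ψ : SL(2, ℤ) → ℂ) (δ : SL(2, ℤ)) {z : ℂ} (hz : z ∈ H) :
    quot ψ (act δ z) = quot (fun γ => ψ (γ * δ⁻¹)) z := by
  rw [quot, quot, series_act ψ δ hz, e6_act δ hz,
    mul_div_mul_left _ _ (pow_ne_zero _ (jfac_ne_zero δ hz))]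

/-- Existence of a meromorphic function with prescribed multiplier `χ`.  Moreover it is bounded
and holomorphic near every cusp and has the period of that cusp. -/
theorem exists_isEquivariant' (Γ : Subgroup SL(2, ℤ))
    (χ : Γ →* ℂˣ) {n : ℕ} (hn : 0 < n) (hχ : ∀ γ, χ γ ^ n = 1)
    (hneg : ∀ γ : Γ, (γ : SL(2, ℤ)) = -1 → χ γ = 1)
    (hpar : ∀ γ : Γ, ((γ : SL(2, ℤ)) : Matrix (Fin 2) (Fin 2) ℤ).trace ^ 2 = 4 → χ γ = 1) :
    ∃ g : ℂ → ℂ, MeromorphicNFOn g H ∧ (∀ z ∈ H, meromorphicOrderAt g z ≠ ⊤) ∧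
      IsEquivariant Γ χ g ∧
      (∀ A : SL(2, ℤ), ∃ C Y : ℝ, ∀ z : ℂ, Y < z.im →
        z ∈ H ∧ AnalyticAt ℂ (g ∘ act A) z ∧ ‖g (act A z)‖ ≤ C) ∧
      (∀ A : SL(2, ℤ), ∀ h : ℤ, A * ModularGroup.T ^ h * A⁻¹ ∈ Γ →
        ∀ z ∈ H, g (act A (z + h)) = g (act A z)) := by
  classical
  set ψ := coeff Γ χ with hψdef
  have hψ : ∀ γ, ‖ψ γ‖ ≤ 1 := norm_coeff_le hn hχ
  have hq : MeromorphicOn (quot ψ) H := fun z hz =>
    (meromorphicOn_series ψ hψ z hz).div (analyticAt_e6 hz).meromorphicAt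
  set g := toMeromorphicNFOn (quot ψ) H with hgdef
  have hnf : MeromorphicNFOn g H := meromorphicNFOn_toMeromorphicNFOn _ _
  have hgq : ∀ z ∈ H, g =ᶠ[𝓝[≠] z] quot ψ := fun z hz =>
    MeromorphicOn.toMeromorphicNFOn_eq_self_on_nhdsNE hq hz
  -- holomorphy and boundedness near the cusps
  obtain ⟨C, hC⟩ := exists_bound_series
  obtain ⟨Y₆, hY₆⟩ := exists_e6_ge
  have hcusp : ∀ A : SL(2, ℤ), ∀ z : ℂ, max Y₆ 5 < z.im →
      z ∈ H ∧ AnalyticAt ℂ (g ∘ act A) z ∧ ‖g (act A z)‖ ≤ 2 * C := by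
    intro A z hz
    have h5 : 5 < z.im := lt_of_le_of_lt (le_max_right _ _) hz
    have h6 := hY₆ z (lt_of_le_of_lt (le_max_left _ _) hz)
    have hzH : z ∈ H := show 0 < z.im by linarith
    have he : e6 z ≠ 0 := fun h => by rw [h, norm_zero] at h6; norm_num at h6
    set ψ' : SL(2, ℤ) → ℂ := fun γ => ψ (γ * A⁻¹)
    have hψ' : ∀ γ, ‖ψ' γ‖ ≤ 1 := fun γ => hψ _
    have ha : AnalyticAt ℂ (quot ψ') z :=
      (analyticAt_series ψ' hψ' h5).div (analyticAt_e6 hzH) he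
    have hev : g ∘ act A =ᶠ[𝓝[≠] z] quot ψ' := by
      filter_upwards [(tendsto_act_nhdsNE A hzH).eventually (hgq _ (act_mem hzH)),
        nhdsWithin_le_nhds (isOpen_H.mem_nhds hzH)] with w hw hwH
      rw [Function.comp_apply, hw, quot_act ψ A hwH]
    have hev' : g ∘ act A =ᶠ[𝓝 z] quot ψ' :=
      (((hnf (act_mem hzH)).comp_analyticAt (analyticAt_act A hzH)
        ).eventuallyEq_nhdsNE_iff_eventuallyEq_nhds ha.meromorphicNFAt).1 hev
    refine ⟨hzH, ha.congr hev'.symm, ?_⟩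
    rw [show g (act A z) = quot ψ' z from hev'.eq_of_nhds, quot, norm_div,
      div_le_iff₀ (by linarith)]
    have hC0 : 0 ≤ C := (norm_nonneg _).trans (hC ψ' hψ' z h5)
    calc ‖series ψ' z‖ ≤ C := hC ψ' hψ' z h5
      _ = 2 * C * (1 / 2) := by ring
      _ ≤ 2 * C * ‖e6 z‖ := by gcongr
  -- equivariance
  have heq : IsEquivariant Γ χ g := by
    intro γ z hz
    have hc : (χ γ : ℂ) ≠ 0 := (χ γ).ne_zero
    refine eqOn_of_eventuallyEq_nhdsNE isPreconnected_H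
      (fun w hw => (hnf (act_mem hw)).comp_analyticAt (analyticAt_act _ hw))
      (meromorphicNFOn_const_mul hc hnf) I_mem_H ?_ hz
    filter_upwards [hgq _ I_mem_H, (tendsto_act_nhdsNE (γ : SL(2, ℤ)) I_mem_H).eventually
      (hgq _ (act_mem I_mem_H)), nhdsWithin_le_nhds (isOpen_H.mem_nhds I_mem_H)] with w h1 h2 hw
    rw [Function.comp_apply, h2, h1, quot_act ψ _ hw, quot, quot, ← mul_div_assoc]
    congr 1
    unfold series
    rw [← tsum_mul_left]
    refine tsum_congr fun η => ?_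
    simp only [hψdef, coeff_mul_inv, mul_assoc]
  have hne : ∀ z ∈ H, meromorphicOrderAt g z ≠ ⊤ := by
    have h2I : (2 * Complex.I : ℂ) ∈ H := by simp [H]
    intro z hz
    refine hnf.meromorphicOn.meromorphicOrderAt_ne_top_of_isPreconnected isPreconnected_H h2I hz ?_
    have hone : coeff Γ χ 1 = 1 := by
      unfold coeff
      rw [dif_pos (one_mem Γ), show (⟨1, one_mem Γ⟩ : Γ) = 1 from rfl, map_one, inv_one,
        Units.val_one]
    intro htop
    refine meromorphicOrderAt_series_ne_top ψ hψ ?_ ?_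
    · rw [hψdef, hone]
      unfold coeff
      by_cases hmem : (-1 : SL(2, ℤ)) ∈ Γ
      · rw [dif_pos hmem, hneg _ rfl, inv_one, Units.val_one]
        norm_num
      · rw [dif_neg hmem]
        norm_num
    rw [meromorphicOrderAt_eq_top_iff] at htop ⊢
    have he : ∀ᶠ w in 𝓝[≠] (2 * Complex.I), e6 w ≠ 0 := by
      refine (eventually_ne_zero_analyticAt (analyticAt_e6 h2I).meromorphicAt ?_).mono fun w hw => hw.1
      have hm : MeromorphicOn e6 H := fun w hw => (analyticAt_e6 hw).meromorphicAt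
      obtain ⟨Y, hY⟩ := exists_e6_ge
      set w₀ : ℂ := ((max Y 0 + 1 : ℝ) : ℂ) * Complex.I
      have hw₀ : w₀.im = max Y 0 + 1 := by
        rw [Complex.mul_I_im, Complex.ofReal_re]
      have hw₀H : w₀ ∈ H := show 0 < w₀.im by linarith [le_max_right Y 0]
      refine hm.meromorphicOrderAt_ne_top_of_isPreconnected isPreconnected_H hw₀H h2I ?_
      rw [(analyticAt_e6 hw₀H).meromorphicNFAt.meromorphicOrderAt_eq_zero_iff.2]
      · exact WithTop.zero_ne_top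
      · intro h
        have := hY w₀ (by linarith [le_max_left Y 0])
        rw [h, norm_zero] at this
        norm_num at this
    filter_upwards [htop, hgq _ h2I, he] with w hw hw' hw''
    rw [hw'] at hw
    exact (div_eq_zero_iff.1 hw).resolve_right hw''
  refine ⟨g, hnf, hne, heq, fun A => ⟨2 * C, max Y₆ 5, hcusp A⟩, fun A h hmem z hz => ?_⟩
  have htr : ((A * ModularGroup.T ^ h * A⁻¹ : SL(2, ℤ)) : Matrix (Fin 2) (Fin 2) ℤ).trace ^ 2
      = 4 := by
    rw [Matrix.SpecialLinearGroup.coe_mul, Matrix.SpecialLinearGroup.coe_mul,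
      Matrix.trace_mul_cycle, ← Matrix.SpecialLinearGroup.coe_mul, inv_mul_cancel,
      Matrix.SpecialLinearGroup.coe_one, one_mul, ModularGroup.coe_T_zpow, Matrix.trace_fin_two]
    norm_num
  have := heq ⟨_, hmem⟩ (act A z) (act_mem hz)
  rwa [hpar ⟨_, hmem⟩ htr, Units.val_one, one_mul, act_mul _ _ (act_mem hz),
    act_inv_act A hz, act_mul _ _ hz, act_T_zpow _ hz] at this

theorem exists_isEquivariant (Γ : Subgroup SL(2, ℤ))
    (χ : Γ →* ℂˣ) {n : ℕ} (hn : 0 < n) (hχ : ∀ γ, χ γ ^ n = 1)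
    (hneg : ∀ γ : Γ, (γ : SL(2, ℤ)) = -1 → χ γ = 1)
    (hpar : ∀ γ : Γ, ((γ : SL(2, ℤ)) : Matrix (Fin 2) (Fin 2) ℤ).trace ^ 2 = 4 → χ γ = 1) :
    ∃ g : ℂ → ℂ, MeromorphicNFOn g H ∧ (∀ z ∈ H, meromorphicOrderAt g z ≠ ⊤) ∧
      IsEquivariant Γ χ g ∧
      (∀ A : SL(2, ℤ), IsBoundedAtImInfty fun τ : ℍ => g (act A τ)) ∧
      (∀ A : SL(2, ℤ), ∀ h : ℤ, A * ModularGroup.T ^ h * A⁻¹ ∈ Γ →
        ∀ z ∈ H, g (act A (z + h)) = g (act A z)) := by
  obtain ⟨g, h1, h2, h3, h4, h5⟩ := exists_isEquivariant' Γ χ hn hχ hneg hpar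
  refine ⟨g, h1, h2, h3, fun A => ?_, h5⟩
  obtain ⟨C, Y, hA⟩ := h4 A
  refine isBoundedAtImInfty_iff.2 ⟨C, Y + 1, fun τ hτ => (hA τ ?_).2.2⟩
  simp only [UpperHalfPlane.coe_im]
  linarith

/-- A periodic function, holomorphic and bounded near `∞`, is analytic in `q`. -/
theorem exists_analyticAt_qParam {F : ℂ → ℂ} {h : ℝ} (hh : 0 < h)
    (hper : ∀ z ∈ H, F (z + h) = F z) {C Y : ℝ}
    (hF : ∀ z : ℂ, Y < z.im → AnalyticAt ℂ F z ∧ ‖F z‖ ≤ C) :
    ∃ G : ℂ → ℂ, AnalyticAt ℂ G 0 ∧ ∀ z : ℂ, max Y 0 < z.im →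
      F z = G (Function.Periodic.qParam h z) := by
  set F' : ℂ → ℂ := fun z => if 0 < z.im then F z else 0 with hF'
  have hp : Function.Periodic F' h := by
    intro z
    simp only [hF', Complex.add_im, Complex.ofReal_im, add_zero]
    split_ifs with hz
    · exact hper z hz
    · rfl
  have hmem : ∀ᶠ z in (comap Complex.im atTop), max Y 0 < Complex.im z :=
    preimage_mem_comap (Ioi_mem_atTop _)
  have hdiff : ∀ᶠ z in (comap Complex.im atTop), DifferentiableAt ℂ F' z := by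
    filter_upwards [hmem] with z hz
    refine (hF z (lt_of_le_of_lt (le_max_left _ _) hz)).1.differentiableAt.congr_of_eventuallyEq ?_
    filter_upwards [(isOpen_lt continuous_const Complex.continuous_im).mem_nhds
      (show (0 : ℝ) < z.im from lt_of_le_of_lt (le_max_right _ _) hz)] with w hw
    exact if_pos hw
  have hbd : BoundedAtFilter (comap Complex.im atTop) F' := by
    refine Asymptotics.IsBigO.of_bound C ?_
    filter_upwards [hmem] with z hz
    simp only [Pi.one_apply, norm_one, mul_one, hF']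
    rw [if_pos (lt_of_le_of_lt (le_max_right _ _) hz)]
    exact (hF z (lt_of_le_of_lt (le_max_left _ _) hz)).2
  refine ⟨Function.Periodic.cuspFunction h F', ?_, fun z hz => ?_⟩
  · refine Complex.analyticAt_iff_eventually_differentiableAt.2 ?_
    have h0 := Function.Periodic.differentiableAt_cuspFunction_zero hh hp hdiff hbd
    have h1 := Function.Periodic.eventually_differentiableAt_cuspFunction_nhds_ne_zero hh hp hdiff
    rw [eventually_nhdsWithin_iff] at h1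
    filter_upwards [h1] with q hq
    rcases eq_or_ne q 0 with rfl | hne
    · exact h0
    · exact hq hne
  · rw [Function.Periodic.eq_cuspFunction hh.ne' hp z, hF']
    exact (if_pos (lt_of_le_of_lt (le_max_right _ _) hz)).symm

/-- The `n`th power of such a function is invariant and meromorphic at every cusp, in the
parameter of any period of that cusp. -/
theorem exists_isEquivariant_isMeroAtInfty (Γ : Subgroup SL(2, ℤ))
    (χ : Γ →* ℂˣ) {n : ℕ} (hn : 0 < n) (hχ : ∀ γ, χ γ ^ n = 1)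
    (hneg : ∀ γ : Γ, (γ : SL(2, ℤ)) = -1 → χ γ = 1)
    (hpar : ∀ γ : Γ, ((γ : SL(2, ℤ)) : Matrix (Fin 2) (Fin 2) ℤ).trace ^ 2 = 4 → χ γ = 1) :
    ∃ g : ℂ → ℂ, IsRoot n (g ^ n) g ∧ IsEquivariant Γ χ g ∧ IsInvariant Γ (g ^ n) ∧
      ∀ A : SL(2, ℤ), ∀ h : ℕ, 0 < h → A * ModularGroup.T ^ (h : ℤ) * A⁻¹ ∈ Γ →
        IsMeroAtInfty (h : ℝ) (g ∘ act A) ∧ IsMeroAtInfty (h : ℝ) ((g ^ n) ∘ act A) := by
  obtain ⟨g, h1, h2, h3, h4, h5⟩ := exists_isEquivariant' Γ χ hn hχ hneg hpar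
  refine ⟨g, ⟨h1, fun z _ => EventuallyEq.rfl, h2⟩, h3, fun γ hγ z hz => ?_, fun A h hh hmem => ?_⟩
  · filter_upwards [nhdsWithin_le_nhds (isOpen_H.mem_nhds hz)] with w hw
    rw [Function.comp_apply, Pi.pow_apply, Pi.pow_apply, h3 ⟨γ, hγ⟩ w hw, mul_pow,
      ← Units.val_pow_eq_pow_val, hχ, Units.val_one, one_mul]
  · obtain ⟨C, Y, hA⟩ := h4 A
    obtain ⟨G, hG, hGeq⟩ := exists_analyticAt_qParam (F := g ∘ act A) (h := (h : ℝ))
      (by exact_mod_cast hh) (fun z hz => by simpa using h5 A h hmem z hz)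
      (fun z hz => (hA z hz).2)
    refine ⟨⟨G, hG.meromorphicAt, max Y 0, hGeq⟩,
      ⟨G ^ n, (hG.pow n).meromorphicAt, max Y 0, fun z hz => ?_⟩⟩
    rw [Function.comp_apply, Pi.pow_apply, Pi.pow_apply, ← hGeq z hz, Function.comp_apply]

end Fermat.Agent.Multiplier
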