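/-
Translation between `HasQExp` and functions of `q` meromorphic at `0`.
-/
import Fermat.Agent.Multiplier.Root
import Fermat.Agent.ModFun.QExp
import Mathlib.Analysis.Analytic.OfScalars

set_option autoImplicit false

open scoped Topology
open Filter UpperHalfPlane Fermat.Agent.ModFun

namespace Fermat.Agent.Multiplier

/-- A `q`-expansion gives a function of `q`, meromorphic at `0`, of the same order. -/
theorem exists_meromorphicAt_of_hasQExp {h : ℕ} [NeZero h] {f : ℍ → ℂ} {x : LaurentSeries ℂ}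
    (hf : HasQExp h f x) :
    ∃ G : ℂ → ℂ, MeromorphicAt G 0 ∧
      (∃ Y : ℝ, ∀ τ : ℍ, Y < τ.im → f τ = G (Function.Periodic.qParam (h : ℝ) τ)) ∧
      (x ≠ 0 → meromorphicOrderAt G 0 = ((x.order : ℤ) : WithTop ℤ)) := by
  set k₀ : ℤ := x.order with hk₀
  set c : ℕ → ℂ := fun n => x.coeff (k₀ + n) with hc
  have hshift : ∀ (q : ℂ) (s : ℂ), q ≠ 0 → HasSum (fun k : ℤ => x.coeff k * q ^ k) s →
      HasSum (fun n : ℕ => c n * q ^ n) (q ^ (-k₀) * s) := by
    intro q s hq hs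
    have hinj : Function.Injective (fun n : ℕ => k₀ + (n : ℤ)) := fun a b hab => by simpa using hab
    have hz : ∀ k : ℤ, k ∉ Set.range (fun n : ℕ => k₀ + (n : ℤ)) → x.coeff k * q ^ k = 0 := by
      intro k hk
      have hlt : k < k₀ := by
        by_contra hge
        push Not at hge
        exact hk ⟨(k - k₀).toNat, by simp [Int.toNat_of_nonneg (sub_nonneg.2 hge)]⟩
      rw [HahnSeries.coeff_eq_zero_of_lt_order (hk₀ ▸ hlt), zero_mul]
    have h1 := ((hinj.hasSum_iff hz).2 hs).mul_left (q ^ (-k₀))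
    refine h1.congr_fun fun n => ?_
    simp only [Function.comp_apply, hc]
    rw [mul_left_comm, ← zpow_add₀ hq, neg_add_cancel_left, zpow_natCast]
  obtain ⟨A, hA⟩ := (atImInfty_mem _).1 hf
  obtain ⟨τ₀, hτ₀⟩ : ∃ τ₀ : ℍ, A ≤ τ₀.im :=
    ⟨⟨((max A 1 : ℝ) : ℂ) * Complex.I, by
      rw [Complex.mul_I_im, Complex.ofReal_re]
      exact lt_max_of_lt_right one_pos⟩,
      le_trans (le_max_left A 1) (le_of_eq (by simp [UpperHalfPlane.im]))⟩
  set q₀ := Function.Periodic.qParam (h : ℝ) (τ₀ : ℂ)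
  have hq₀ : q₀ ≠ 0 := Complex.exp_ne_zero _
  set p := FormalMultilinearSeries.ofScalars ℂ c with hp
  have hrad : (0 : ENNReal) < p.radius := by
    refine lt_of_lt_of_le (ENNReal.coe_pos.2 (nnnorm_pos.2 hq₀)) (p.le_radius_of_summable ?_)
    refine (hshift q₀ _ hq₀ (hA τ₀ hτ₀)).summable.norm.congr fun n => ?_
    rw [hp, FormalMultilinearSeries.ofScalars_norm, norm_mul, norm_pow, coe_nnnorm]
  have hpa : AnalyticAt ℂ p.sum 0 := (p.hasFPowerSeriesOnBall hrad).analyticAt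
  have hsum : ∀ q : ℂ, p.sum q = ∑' n, c n * q ^ n := fun q => tsum_congr fun n => by
    rw [hp, FormalMultilinearSeries.ofScalars_apply_eq, smul_eq_mul]
  have hm : MeromorphicAt (fun q : ℂ => q ^ k₀ * p.sum q) 0 :=
    ((MeromorphicAt.id 0).fun_zpow k₀).mul hpa.meromorphicAt
  refine ⟨fun q => q ^ k₀ * p.sum q, ?_, ⟨A, fun τ hτ => ?_⟩, fun hx => ?_⟩
  · exact hm
  · have hq : Function.Periodic.qParam (h : ℝ) (τ : ℂ) ≠ 0 := Complex.exp_ne_zero _
    simp only
    rw [hsum, (hshift _ _ hq (hA τ hτ.le)).tsum_eq, ← mul_assoc, ← zpow_add₀ hq, add_neg_cancel,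
      zpow_zero, one_mul]
  · rw [meromorphicOrderAt_eq_int_iff hm]
    refine ⟨p.sum, hpa, ?_, Eventually.of_forall fun q => by simp [hk₀]⟩
    rw [hsum, tsum_eq_single 0 (fun n hn => by simp [hn])]
    simpa [hc, hk₀] using HahnSeries.coeff_order_eq_zero.not.2 hx

/-- A function of `q` analytic at `0` has a `q`-expansion. -/
theorem exists_hasQExp_of_analyticAt {h : ℕ} [NeZero h] {f : ℍ → ℂ} {G : ℂ → ℂ}
    (hG : AnalyticAt ℂ G 0)
    (hf : ∀ᶠ τ : ℍ in atImInfty, f τ = G (Function.Periodic.qParam (h : ℝ) τ)) :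
    ∃ x, HasQExp h f x := by
  obtain ⟨p, hp⟩ := hG
  have hh : (0 : ℝ) < h := Nat.cast_pos.2 (NeZero.pos h)
  refine ⟨HahnSeries.ofPowerSeries ℤ ℂ (PowerSeries.mk p.coeff), ?_⟩
  filter_upwards [hf,
    (UpperHalfPlane.qParam_tendsto_atImInfty hh).eventually (hasFPowerSeriesAt_iff.1 hp)]
    with τ hτ hq
  rw [hτ]
  have hinj : Function.Injective (fun n : ℕ => (n : ℤ)) := Int.ofNat_injective
  refine (hinj.hasSum_iff ?_).1 ?_
  · intro k hk
    have hneg : k < 0 := by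
      by_contra hge
      exact hk ⟨k.toNat, Int.toNat_of_nonneg (not_lt.1 hge)⟩
    rw [show (HahnSeries.ofPowerSeries ℤ ℂ (PowerSeries.mk p.coeff)).coeff k = 0 from ?_, zero_mul]
    rw [HahnSeries.ofPowerSeries_apply]
    refine HahnSeries.embDomain_of_notMem_range ?_
    rintro ⟨m, hm⟩
    rw [← hm] at hneg
    simp at hneg
    omega
  · refine (by simpa using hq : HasSum _ _).congr_fun fun n => ?_
    simp [mul_comm]

end Fermat.Agent.Multiplier
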