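/-
Roots and multipliers in the vocabulary of `ModFun` and `Places`: functions `ℍ → ℂ`, `MeroH`,
`ordH`, `EqPunct`, `HasQExp`, `ellPeriod`.
-/
import Fermat.Agent.Multiplier.Existence
import Fermat.Agent.Multiplier.LaurentEval
import Fermat.Agent.ModFun.Basic
import Fermat.Agent.Places.Defs
import Mathlib.Analysis.Complex.UpperHalfPlane.FixedPoints
import Mathlib.GroupTheory.OrderOfElement
import Mathlib.RingTheory.IntegralDomain

set_option autoImplicit false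

open scoped MatrixGroups Topology
open UpperHalfPlane Filter Fermat.Agent.ModFun

namespace Fermat.Agent.Multiplier

/-- `g` transforms under `Γ` by `χ`, as a function on `ℍ`. -/
def IsEquivariantH (Γ : Subgroup SL(2, ℤ)) (χ : Γ →* ℂˣ) (g : ℍ → ℂ) : Prop :=
  ∀ (γ : Γ) (τ : ℍ), g ((γ : SL(2, ℤ)) • τ) = (χ γ : ℂ) * g τ

/-- `g` is an `n`th root of `f`, as functions on `ℍ`. -/
def IsRootH (n : ℕ) (f g : ℍ → ℂ) : Prop := IsRoot n (f ∘ ofComplex) (g ∘ ofComplex)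

theorem ofComplex_act (γ : SL(2, ℤ)) {z : ℂ} (hz : z ∈ H) :
    ofComplex (act γ z) = γ • ofComplex z := by
  rw [ofComplex_apply_of_im_pos (act_mem hz), ofComplex_apply_of_im_pos hz]
  exact UpperHalfPlane.ext (coe_smul_eq_act γ ⟨z, hz⟩).symm

theorem IsEquivariantH.comp_ofComplex {Γ : Subgroup SL(2, ℤ)} {χ : Γ →* ℂˣ} {g : ℍ → ℂ}
    (h : IsEquivariantH Γ χ g) : IsEquivariant Γ χ (g ∘ ofComplex) := by
  intro γ z hz
  rw [Function.comp_apply, Function.comp_apply, ofComplex_act _ hz, h]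

theorem eventuallyEq_comp_ofComplex {g : ℂ → ℂ} {z : ℂ} (hz : z ∈ H) :
    ((fun τ : ℍ => g τ) ∘ ofComplex) =ᶠ[𝓝 z] g := by
  filter_upwards [isOpen_H.mem_nhds hz] with w hw
  rw [Function.comp_apply, ofComplex_apply_of_im_pos hw]

theorem isRootH_of_isRoot {n : ℕ} {f : ℍ → ℂ} {g : ℂ → ℂ} (hg : IsRoot n (f ∘ ofComplex) g) :
    IsRootH n f fun τ => g τ where
  meromorphicNFOn z hz :=
    (meromorphicNFAt_congr (eventuallyEq_comp_ofComplex hz)).2 (hg.meromorphicNFOn hz)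
  pow_eq z hz := (((eventuallyEq_comp_ofComplex hz).filter_mono nhdsWithin_le_nhds).pow_const n
    ).trans (hg.pow_eq z hz)
  order_ne_top z hz := by
    rw [meromorphicOrderAt_congr
      ((eventuallyEq_comp_ofComplex hz).filter_mono nhdsWithin_le_nhds)]
    exact hg.order_ne_top z hz

theorem IsRootH.meroH {n : ℕ} {f g : ℍ → ℂ} (hg : IsRootH n f g) : MeroH g :=
  hg.meromorphicNFOn.meromorphicOn

theorem IsRootH.eqPunct {n : ℕ} {f g : ℍ → ℂ} (hg : IsRootH n f g) : EqPunct (g ^ n) f :=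
  fun τ => hg.pow_eq τ τ.coe_im_pos

theorem IsRootH.ordH_eq {n : ℕ} {f g : ℍ → ℂ} (hg : IsRootH n f g) (τ : ℍ) :
    ∃ k : ℤ, ordH g τ = (k : WithTop ℤ) ∧ ordH f τ = ((n * k : ℤ) : WithTop ℤ) :=
  IsRoot.meromorphicOrderAt_eq hg τ.coe_im_pos

theorem IsRootH.exists_apply_ne_zero {n : ℕ} {f g : ℍ → ℂ} (hg : IsRootH n f g) :
    ∃ τ : ℍ, g τ ≠ 0 := by
  obtain ⟨w, hw, hw0, -⟩ := (IsRoot.eventually_good hg I_mem_H).exists
  exact ⟨ofComplex w, hw0⟩

/-- Roots of invariant functions, with their multipliers. -/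
theorem exists_rootH_multiplier {n : ℕ} (hn : 0 < n) (Γ : Subgroup SL(2, ℤ)) {f : ℍ → ℂ}
    (hf : MeroH f) (hord : ∀ τ : ℍ, ∃ k : ℤ, ordH f τ = ((n * k : ℤ) : WithTop ℤ))
    (hinv : ∀ γ ∈ Γ, ∀ τ : ℍ, f (γ • τ) = f τ) :
    ∃ (g : ℍ → ℂ) (χ : Γ →* ℂˣ),
      IsRootH n f g ∧ (∀ γ, χ γ ^ n = 1) ∧ IsEquivariantH Γ χ g := by
  obtain ⟨g, hg⟩ := exists_root hn hf fun z hz => hord ⟨z, hz⟩
  have hinv' : IsInvariant Γ (f ∘ ofComplex) := by
    intro γ hγ z hz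
    filter_upwards [nhdsWithin_le_nhds (isOpen_H.mem_nhds hz)] with w hw
    rw [Function.comp_apply, Function.comp_apply, Function.comp_apply, ofComplex_act _ hw,
      hinv γ hγ]
  obtain ⟨χ, hχ, he⟩ := hg.exists_multiplier hn hinv'
  refine ⟨fun τ => g τ, χ, isRootH_of_isRoot hg, hχ, fun γ τ => ?_⟩
  simp only [coe_smul_eq_act]
  exact he γ τ τ.coe_im_pos

theorem IsEquivariantH.map_neg_one {n : ℕ} {Γ : Subgroup SL(2, ℤ)} {χ : Γ →* ℂˣ} {f g : ℍ → ℂ}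
    (hg : IsRootH n f g) (h : IsEquivariantH Γ χ g) (γ : Γ) (hγ : (γ : SL(2, ℤ)) = -1) :
    χ γ = 1 :=
  IsEquivariant.map_neg_one (IsRoot.meromorphicNFOn hg) (IsRoot.order_ne_top hg _ I_mem_H)
    h.comp_ofComplex γ hγ

/-! ### Elliptic points -/

/-- At a fixed point the multiplier is determined by the order. -/
theorem IsEquivariantH.multiplier_eq_of_smul_eq {Γ : Subgroup SL(2, ℤ)} {χ : Γ →* ℂˣ} {g : ℍ → ℂ}
    (he : IsEquivariantH Γ χ g) (hg : MeroH g) {τ : ℍ} {m : ℤ}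
    (hm : ordH g τ = (m : WithTop ℤ)) (γ : Γ) (hfix : (γ : SL(2, ℤ)) • τ = τ) :
    (χ γ : ℂ) = ((jfac (γ : SL(2, ℤ)) τ ^ 2)⁻¹) ^ m := by
  refine multiplier_eq_zpow_of_fixed (g := g ∘ ofComplex) _ τ.coe_im_pos
    (by rw [← coe_smul_eq_act, hfix]) (hg _ τ.coe_im_pos) hm ?_
  filter_upwards [nhdsWithin_le_nhds (isOpen_H.mem_nhds τ.coe_im_pos)] with z hz
  exact he.comp_ofComplex γ z hz

/-- The character `γ ↦ j(γ, τ)⁻²` of the stabiliser. -/
noncomputable def stabChar (Γ : Subgroup SL(2, ℤ)) (τ : ℍ) :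
    MulAction.stabilizer Γ τ →* ℂˣ where
  toFun γ := Units.mk0 ((jfac ((γ : Γ) : SL(2, ℤ)) τ ^ 2)⁻¹)
    (inv_ne_zero (pow_ne_zero _ (jfac_ne_zero _ τ.coe_im_pos)))
  map_one' := Units.ext (by simp [jfac_one])
  map_mul' γ δ := Units.ext (by
    have h : ((δ : Γ) : SL(2, ℤ)) • τ = τ := δ.2
    simp only [Units.val_mk0, Units.val_mul, Subgroup.coe_mul]
    rw [jfac_mul _ _ τ.coe_im_pos, ← coe_smul_eq_act, h, mul_pow, mul_inv])

theorem coe_stabChar {Γ : Subgroup SL(2, ℤ)} {τ : ℍ} (γ : MulAction.stabilizer Γ τ) :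
    (stabChar Γ τ γ : ℂ) = (jfac ((γ : Γ) : SL(2, ℤ)) τ ^ 2)⁻¹ := rfl

theorem eq_or_eq_neg_of_jfac {γ : SL(2, ℤ)} {τ : ℍ} (hfix : γ • τ = τ)
    (hj : jfac γ τ ^ 2 = 1) : γ = 1 ∨ γ = -1 := by
  have him : (γ 1 0 : ℝ) * τ.im = 0 := by
    rcases sq_eq_one_iff.1 hj with h | h <;> simpa [jfac] using congrArg Complex.im h
  have hc : γ 1 0 = 0 := by exact_mod_cast (mul_eq_zero.1 him).resolve_right τ.im_ne_zero
  have hd := γ.2
  rw [Matrix.det_fin_two, hc, mul_zero, sub_zero] at hd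
  have hb : γ 0 1 = 0 := by
    have h := coe_smul_eq_act γ τ
    rw [hfix] at h
    rcases Int.eq_one_or_neg_one_of_mul_eq_one' hd with ⟨ha, hd'⟩ | ⟨ha, hd'⟩
    · simpa [act, hc, ha, hd'] using h
    · simp [act, hc, ha, hd'] at h
      rw [div_neg, div_one] at h
      have h' : ((γ 0 1 : ℤ) : ℂ) = 0 := by linear_combination h
      exact_mod_cast h'
  rcases Int.eq_one_or_neg_one_of_mul_eq_one' hd with ⟨ha, hd'⟩ | ⟨ha, hd'⟩
  · left; ext i j; fin_cases i <;> fin_cases j <;> simp [hb, hc, ha, hd']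
  · right; ext i j; fin_cases i <;> fin_cases j <;> simp [hb, hc, ha, hd']

theorem finite_stabilizer (Γ : Subgroup SL(2, ℤ)) (τ : ℍ) :
    Finite (MulAction.stabilizer Γ τ) := by
  have hfin : {γ : SL(2, ℤ) | γ • τ = τ}.Finite := by
    obtain ⟨U, -, hτU, hUH, r₀, hr₀, hr, -⟩ := exists_nhds_finite (τ : ℂ) τ.coe_im_pos
    set R : ℝ := (1 + ‖(τ : ℂ)‖) / r₀
    have hb : (Metric.closedBall (0 : Fin 2 → ℤ) R).Finite :=
      (isCompact_closedBall _ _).finite_of_discrete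
    refine Set.Finite.of_finite_image (f := fun γ : SL(2, ℤ) =>
        ((γ : Matrix (Fin 2) (Fin 2) ℤ) 0, (γ : Matrix (Fin 2) (Fin 2) ℤ) 1))
      ((hb.prod hb).subset ?_) ?_
    · rintro _ ⟨γ, hγ, rfl⟩
      have hj : Complex.normSq (jfac γ τ) = 1 := by
        have h := ModularGroup.im_smul_eq_div_normSq γ τ
        rw [show γ • τ = τ from hγ, ModularGroup.denom_apply] at h
        rw [eq_div_iff (by simpa [jfac] using Complex.normSq_pos.2 (jfac_ne_zero γ τ.coe_im_pos) |>.ne')] at h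
        simpa [jfac] using mul_left_cancel₀ τ.im_ne_zero (h.trans (mul_one _).symm)
      have hj' : ‖jfac γ τ‖ = 1 := by rw [Complex.norm_def, hj, Real.sqrt_one]
      have hn' : ‖nfac γ τ‖ = ‖(τ : ℂ)‖ := by
        have h := coe_smul_eq_act γ τ
        rw [show γ • τ = τ from hγ] at h
        rw [show nfac γ τ = act γ τ * jfac γ τ from
          (div_mul_cancel₀ _ (jfac_ne_zero γ τ.coe_im_pos)).symm, ← h, norm_mul, hj', mul_one]
      have hr' := hr τ hτU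
      refine Set.mk_mem_prod ?_ ?_ <;> rw [mem_closedBall_zero_iff, le_div_iff₀ hr₀, mul_comm]
      · linarith [(mul_le_mul_of_nonneg_right hr' (norm_nonneg _)).trans
          ((r_mul_norm_row_le_nfac γ τ).trans_eq hn'), norm_nonneg (τ : ℂ)]
      · linarith [(mul_le_mul_of_nonneg_right hr' (norm_nonneg _)).trans
          ((r_mul_norm_row_le_jfac γ τ).trans_eq hj'), norm_nonneg (τ : ℂ)]
    · intro γ _ δ _ h
      simp only [Prod.mk.injEq] at h
      ext i j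
      fin_cases i
      · exact congrFun h.1 j
      · exact congrFun h.2 j
  have : Finite {γ : SL(2, ℤ) | γ • τ = τ} := hfin.to_subtype
  exact Finite.of_injective
    (fun γ : MulAction.stabilizer Γ τ => (⟨((γ : Γ) : SL(2, ℤ)), γ.2⟩ : {γ : SL(2, ℤ) | γ • τ = τ}))
    fun a b h => Subtype.ext (Subtype.ext (congrArg (fun x : {γ : SL(2, ℤ) | γ • τ = τ} => (x : SL(2, ℤ))) h :))

theorem card_range_stabChar {Γ : Subgroup SL(2, ℤ)} (hΓ : (-1 : SL(2, ℤ)) ∈ Γ) (τ : ℍ) :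
    Nat.card (stabChar Γ τ).range = Places.ellPeriod Γ τ := by
  have := finite_stabilizer Γ τ
  have hm : (⟨-1, hΓ⟩ : Γ) • τ = τ := UpperHalfPlane.ext (by
    show (((-1 : SL(2, ℤ)) • τ : ℍ) : ℂ) = τ
    rw [coe_smul_eq_act, act_neg, act_one])
  set e : MulAction.stabilizer Γ τ := ⟨⟨-1, hΓ⟩, hm⟩
  have he : e ≠ 1 := fun h => by
    have := congrArg (fun x : MulAction.stabilizer Γ τ => ((x : Γ) : SL(2, ℤ)) 0 0) h
    simp [e] at this
  have hset : ((stabChar Γ τ).ker : Set (MulAction.stabilizer Γ τ)) = {1, e} := by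
    ext γ
    simp only [SetLike.mem_coe, MonoidHom.mem_ker, Set.mem_insert_iff, Set.mem_singleton_iff]
    constructor
    · intro h
      have hj : jfac ((γ : Γ) : SL(2, ℤ)) τ ^ 2 = 1 := by
        simpa [coe_stabChar] using congrArg Units.val h
      rcases eq_or_eq_neg_of_jfac γ.2 hj with h1 | h1
      · exact Or.inl (Subtype.ext (Subtype.ext h1))
      · exact Or.inr (Subtype.ext (Subtype.ext h1))
    · rintro (rfl | rfl)
      · exact map_one _
      · refine Units.ext ?_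
        rw [coe_stabChar]
        simp [e, jfac_neg, jfac_one]
  have hker : Nat.card (stabChar Γ τ).ker = 2 := by
    rw [← SetLike.coe_sort_coe, Nat.card_coe_set_eq, hset, Set.ncard_pair he.symm]
  have h1 : Nat.card (stabChar Γ τ).range * 2 = Nat.card (MulAction.stabilizer Γ τ) := by
    have h2 := Subgroup.card_mul_index (stabChar Γ τ).ker
    rw [Subgroup.index_ker, hker] at h2
    exact (mul_comm _ _).trans h2
  rw [Places.ellPeriod, ← h1, Nat.mul_div_cancel _ two_pos]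

/-- The multiplier is trivial on the stabiliser of `τ` iff the order at `τ` is divisible by the
period of `τ`. -/
theorem IsEquivariantH.forall_stabilizer_iff {Γ : Subgroup SL(2, ℤ)} {χ : Γ →* ℂˣ} {g : ℍ → ℂ}
    (he : IsEquivariantH Γ χ g) (hg : MeroH g) (hΓ : (-1 : SL(2, ℤ)) ∈ Γ) {τ : ℍ} {m : ℤ}
    (hm : ordH g τ = (m : WithTop ℤ)) :
    (∀ γ : Γ, (γ : SL(2, ℤ)) • τ = τ → χ γ = 1) ↔ (Places.ellPeriod Γ τ : ℤ) ∣ m := by
  have := finite_stabilizer Γ τ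
  rw [← card_range_stabChar hΓ τ]
  have hval : ∀ γ : MulAction.stabilizer Γ τ, χ (γ : Γ) = stabChar Γ τ γ ^ m := fun γ => by
    refine Units.ext ?_
    rw [Units.val_zpow_eq_zpow_val, coe_stabChar]
    exact he.multiplier_eq_of_smul_eq hg hm _ γ.2
  have : Finite (stabChar Γ τ).range :=
    Finite.of_surjective _ (MonoidHom.rangeRestrict_surjective _)
  constructor
  · intro h
    have hcyc : IsCyclic (stabChar Γ τ).range := inferInstance
    obtain ⟨g₀, hg₀⟩ := hcyc.exists_generator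
    obtain ⟨γ, hγ⟩ := g₀.2
    rw [← orderOf_eq_card_of_forall_mem_zpowers hg₀, orderOf_dvd_iff_zpow_eq_one]
    refine Subtype.ext ?_
    rw [Subgroup.coe_zpow, Subgroup.coe_one, ← hγ, ← hval]
    exact h _ γ.2
  · rintro ⟨d, rfl⟩ γ hfix
    have h := hval ⟨γ, hfix⟩
    have hp : stabChar Γ τ ⟨γ, hfix⟩ ^ Nat.card (stabChar Γ τ).range = 1 :=
      congrArg Subtype.val (pow_card_eq_one' (x := (⟨_, ⟨⟨γ, hfix⟩, rfl⟩⟩ : (stabChar Γ τ).range)))
    rw [h, zpow_mul, zpow_natCast, hp, one_zpow]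

/-- An elliptic element has a fixed point. -/
theorem exists_smul_eq_self_of_trace_sq_lt {γ : SL(2, ℤ)}
    (h : (γ : Matrix (Fin 2) (Fin 2) ℤ).trace ^ 2 < 4) : ∃ τ : ℍ, γ • τ = τ := by
  set g : GL (Fin 2) ℝ := (γ : GL (Fin 2) ℝ) with hg
  have hval : ∀ i j, g i j = ((γ i j : ℤ) : ℝ) := fun i j => rfl
  have hd : g.val.det = 1 := by
    have hd := γ.2
    rw [Matrix.det_fin_two] at hd ⊢
    simp only [hval]
    exact_mod_cast hd
  have hell : g.IsElliptic := by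
    rw [Matrix.trace_fin_two] at h
    show g.val.discr < 0
    rw [Matrix.discr_fin_two, hd, Matrix.trace_fin_two]
    simp only [hval]
    have h' : ((γ 0 0 + γ 1 1) ^ 2 : ℝ) < 4 := by exact_mod_cast h
    linarith
  exact ⟨fixedPt g hell,
    (gl_smul_eq_self_iff_eq_fixedPt (by rw [hd]; exact one_pos) hell).2 rfl⟩

/-- An element with a fixed point has `|trace| ≤ 2`. -/
theorem trace_sq_le_of_smul_eq {γ : SL(2, ℤ)} {τ : ℍ} (h : γ • τ = τ) :
    (γ : Matrix (Fin 2) (Fin 2) ℤ).trace ^ 2 ≤ 4 := by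
  have hd := γ.2
  rw [Matrix.det_fin_two] at hd
  have hq : (γ 1 0 : ℂ) * τ ^ 2 + ((γ 1 1 : ℂ) - γ 0 0) * τ - γ 0 1 = 0 := by
    have hc := coe_smul_eq_act γ τ
    rw [h, act_eq_div, eq_div_iff (jfac_ne_zero γ τ.coe_im_pos)] at hc
    rw [jfac] at hc
    linear_combination hc
  have him := congrArg Complex.im hq
  have hre := congrArg Complex.re hq
  simp [pow_two] at him hre
  rw [Matrix.trace_fin_two]
  have key : ((γ 0 0 + γ 1 1) ^ 2 : ℝ) ≤ 4 := by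
    have hd' : ((γ 0 0 : ℝ) * γ 1 1 - γ 0 1 * γ 1 0) = 1 := by exact_mod_cast hd
    have h2 : 2 * (γ 1 0 : ℝ) * τ.re + ((γ 1 1 : ℝ) - γ 0 0) = 0 :=
      mul_left_cancel₀ τ.im_ne_zero (by linear_combination him)
    have hb : (γ 0 1 : ℝ) = -(γ 1 0 : ℝ) * (τ.re ^ 2 + τ.im ^ 2) := by
      linear_combination -hre + τ.re * h2
    have hid : ((γ 0 0 + γ 1 1) ^ 2 : ℝ) = 4 - 4 * ((γ 1 0 : ℝ) * τ.im) ^ 2 := by
      linear_combination 4 * hd' + (((γ 1 1 : ℝ) - γ 0 0) - 2 * (γ 1 0 : ℝ) * τ.re) * h2 +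
        4 * (γ 1 0 : ℝ) * hb
    rw [hid]
    nlinarith [mul_self_nonneg ((γ 1 0 : ℝ) * τ.im)]
  exact_mod_cast key

/-- If all orders are divisible by the periods, the multiplier kills elliptic elements. -/
theorem IsEquivariantH.map_elliptic {Γ : Subgroup SL(2, ℤ)} {χ : Γ →* ℂˣ} {g : ℍ → ℂ}
    (he : IsEquivariantH Γ χ g) (hg : MeroH g) (hΓ : (-1 : SL(2, ℤ)) ∈ Γ)
    (hord : ∀ τ : ℍ, ∃ k : ℤ, ordH g τ = ((Places.ellPeriod Γ τ * k : ℤ) : WithTop ℤ))
    (γ : Γ) (hγ : ((γ : SL(2, ℤ)) : Matrix (Fin 2) (Fin 2) ℤ).trace ^ 2 < 4) : χ γ = 1 := by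
  obtain ⟨τ, hτ⟩ := exists_smul_eq_self_of_trace_sq_lt hγ
  obtain ⟨k, hk⟩ := hord τ
  exact (he.forall_stabilizer_iff hg hΓ hk).2 ⟨k, rfl⟩ γ hτ

/-! ### Cusps -/

theorem ordH_comp_act {f : ℍ → ℂ} (A : SL(2, ℤ)) {z : ℂ} (hz : z ∈ H) :
    ((fun τ => f (A • τ)) ∘ ofComplex) =ᶠ[𝓝 z] (f ∘ ofComplex) ∘ act A := by
  filter_upwards [isOpen_H.mem_nhds hz] with w hw
  simp only [Function.comp_apply, ofComplex_act _ hw]

/-- The multiplier of a parabolic element is given by the order at the cusp. -/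
theorem IsEquivariantH.multiplier_cusp {n : ℕ} (hn : 0 < n) {Γ : Subgroup SL(2, ℤ)}
    {χ : Γ →* ℂˣ} {f g : ℍ → ℂ} (hg : IsRootH n f g) (he : IsEquivariantH Γ χ g)
    (A : SL(2, ℤ)) {h : ℕ} [NeZero h] {x : LaurentSeries ℂ}
    (hx : HasQExp h (fun τ => f (A • τ)) x) (γ : Γ)
    (hγ : (γ : SL(2, ℤ)) = A * ModularGroup.T ^ (h : ℤ) * A⁻¹) :
    x ≠ 0 ∧ (χ γ : ℂ) = Complex.exp (2 * Real.pi * Complex.I * x.order / n) := by
  set f' := (f ∘ ofComplex) ∘ act A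
  set g' := (g ∘ ofComplex) ∘ act A
  have hroot : IsRoot n f' g' := IsRoot.comp_act hg A
  obtain ⟨G, hG, ⟨Y, hY⟩, hord⟩ := exists_meromorphicAt_of_hasQExp hx
  have hY' : ∀ z : ℂ, max Y 0 < z.im → f' z = G (Function.Periodic.qParam (h : ℝ) z) := by
    intro z hz
    have hzH : z ∈ H := lt_of_le_of_lt (le_max_right _ _) hz
    rw [show f' z = f (A • ofComplex z) by
      simp only [f', Function.comp_apply, ofComplex_act _ hzH], ofComplex_apply_of_im_pos hzH]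
    exact hY ⟨z, hzH⟩ (lt_of_le_of_lt (le_max_left _ _) hz)
  have hh : (0 : ℝ) < h := Nat.cast_pos.2 (NeZero.pos h)
  have hx0 : x ≠ 0 := by
    rintro rfl
    obtain ⟨Y₀, hY₀⟩ := (atImInfty_mem _).1 (show ∀ᶠ τ in atImInfty, f (A • τ) = 0 from
      hx.mono fun τ hτ => by
        have h0 : HasSum (fun _ : ℤ => (0 : ℂ)) (f (A • τ)) := hτ.congr_fun fun k => by simp
        exact (hasSum_zero.unique h0).symm)
    set z₀ : ℂ := ((max Y₀ 0 + 1 : ℝ) : ℂ) * Complex.I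
    have hz₀ : max Y₀ 0 < z₀.im := by
      rw [Complex.mul_I_im, Complex.ofReal_re]
      exact lt_add_one _
    obtain ⟨w, ⟨hwH, hw0, hwp⟩, hwY⟩ :=
      ((hroot.eventually_good (show z₀ ∈ H from lt_of_le_of_lt (le_max_right _ _) hz₀)).and
        (eventually_of_mem (nhdsWithin_le_nhds
          ((isOpen_lt continuous_const Complex.continuous_im).mem_nhds hz₀)) fun _ h => h)).exists
    refine pow_ne_zero n hw0 (hwp.trans ?_)
    simp only [f', Function.comp_apply, ofComplex_act _ hwH]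
    rw [ofComplex_apply_of_im_pos hwH]
    exact hY₀ ⟨w, hwH⟩ (le_of_lt (lt_of_le_of_lt (le_max_left _ _) hwY))
  refine ⟨hx0, ?_⟩
  obtain ⟨w, hw, hw0, -⟩ := (hroot.eventually_good I_mem_H).exists
  refine mul_right_cancel₀ hw0 ?_
  have h1 := hroot.add_period hn hh hG hY' (hord hx0) hw
  rw [← h1]
  have h2 := he.comp_ofComplex γ (act A w) (act_mem hw)
  simp only [g', Function.comp_apply] at h2 ⊢
  rw [← h2, hγ, act_mul _ _ (act_mem hw), act_inv_act A hw, act_mul _ _ hw, act_T_zpow _ hw]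
  push_cast
  rfl

/-- The multiplier of a parabolic element is trivial iff the order at the cusp is divisible
by `n`. -/
theorem IsEquivariantH.map_cusp_eq_one_iff {n : ℕ} (hn : 0 < n) {Γ : Subgroup SL(2, ℤ)}
    {χ : Γ →* ℂˣ} {f g : ℍ → ℂ} (hg : IsRootH n f g) (he : IsEquivariantH Γ χ g)
    (A : SL(2, ℤ)) {h : ℕ} [NeZero h] {x : LaurentSeries ℂ}
    (hx : HasQExp h (fun τ => f (A • τ)) x) (γ : Γ)
    (hγ : (γ : SL(2, ℤ)) = A * ModularGroup.T ^ (h : ℤ) * A⁻¹) :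
    χ γ = 1 ↔ (n : ℤ) ∣ x.order := by
  rw [← Units.val_eq_one, (he.multiplier_cusp hn hg A hx γ hγ).2, Complex.exp_eq_one_iff]
  have hn' : (n : ℂ) ≠ 0 := by exact_mod_cast hn.ne'
  constructor
  · rintro ⟨k, hk⟩
    refine ⟨k, ?_⟩
    have : (x.order : ℂ) = n * k := by
      field_simp [Real.pi_ne_zero, Complex.I_ne_zero] at hk
      linear_combination hk
    exact_mod_cast this
  · rintro ⟨k, hk⟩
    refine ⟨k, ?_⟩
    rw [hk]
    push_cast
    field_simp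

/-! ### Existence -/

/-- Every character killing parabolic and elliptic elements is the multiplier of a root of an
invariant function, meromorphic at the cusps, with orders divisible by `n` in local parameters. -/
theorem exists_rootH_of_character (Γ : Subgroup SL(2, ℤ)) (hΓ : (-1 : SL(2, ℤ)) ∈ Γ)
    (χ : Γ →* ℂˣ) {n : ℕ} (hn : 0 < n) (hχ : ∀ γ, χ γ ^ n = 1)
    (hpe : ∀ γ : Γ, ((γ : SL(2, ℤ)) : Matrix (Fin 2) (Fin 2) ℤ).trace ^ 2 ≤ 4 → χ γ = 1) :
    ∃ f g : ℍ → ℂ, IsRootH n f g ∧ IsEquivariantH Γ χ g ∧ MeroH f ∧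
      (∀ γ ∈ Γ, ∀ τ : ℍ, f (γ • τ) = f τ) ∧
      (∀ τ : ℍ, ∃ k : ℤ,
        ordH f τ = ((n * (Places.ellPeriod Γ τ * k) : ℤ) : WithTop ℤ)) ∧
      ∀ A : SL(2, ℤ), ∀ h : ℕ, 0 < h → A * ModularGroup.T ^ (h : ℤ) * A⁻¹ ∈ Γ →
        ∃ x, HasQExp h (fun τ => f (A • τ)) x ∧ x ≠ 0 ∧ (n : ℤ) ∣ x.order := by
  obtain ⟨g, h1, h2, h3, h4, h5⟩ := exists_isEquivariant' Γ χ hn hχ
    (fun γ hγ => hpe γ (by rw [hγ]; norm_num [Matrix.trace_fin_two]))
    (fun γ hγ => hpe γ hγ.le)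
  set f : ℍ → ℂ := fun τ => g τ ^ n
  have hrootH : IsRootH n f fun τ => g τ :=
    { meromorphicNFOn := fun z hz =>
        (meromorphicNFAt_congr (eventuallyEq_comp_ofComplex hz)).2 (h1 hz)
      pow_eq := fun z hz => EventuallyEq.rfl
      order_ne_top := fun z hz => by
        rw [meromorphicOrderAt_congr
          ((eventuallyEq_comp_ofComplex hz).filter_mono nhdsWithin_le_nhds)]
        exact h2 z hz }
  have heH : IsEquivariantH Γ χ fun τ => g τ := fun γ τ => by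
    simp only [coe_smul_eq_act]
    exact h3 γ τ τ.coe_im_pos
  refine ⟨f, fun τ => g τ, hrootH, heH, fun z hz => ?_, fun γ hγ τ => ?_, fun τ => ?_,
    fun A h hh hmem => ?_⟩
  · exact ((IsRootH.meroH hrootH) z hz).pow n
  · simp only [f]
    rw [show g ((γ • τ : ℍ) : ℂ) = _ from heH ⟨γ, hγ⟩ τ, mul_pow, ← Units.val_pow_eq_pow_val, hχ,
      Units.val_one, one_mul]
  · obtain ⟨m, hm, hm'⟩ := hrootH.ordH_eq τ
    obtain ⟨k, rfl⟩ := (heH.forall_stabilizer_iff hrootH.meroH hΓ hm).1 fun γ hγ => by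
      by_cases hc : ((γ : SL(2, ℤ)) : Matrix (Fin 2) (Fin 2) ℤ).trace ^ 2 ≤ 4
      · exact hpe γ hc
      · exact absurd (trace_sq_le_of_smul_eq hγ) hc
    exact ⟨k, hm'⟩
  · have : NeZero h := ⟨hh.ne'⟩
    obtain ⟨C, Y, hA⟩ := h4 A
    obtain ⟨G, hG, hGeq⟩ := exists_analyticAt_qParam (F := g ∘ act A) (h := (h : ℝ))
      (by exact_mod_cast hh) (fun z hz => by simpa using h5 A h hmem z hz)
      (fun z hz => (hA z hz).2)
    obtain ⟨x, hx⟩ := exists_hasQExp_of_analyticAt (h := h) (f := fun τ => f (A • τ)) (hG.pow n) (by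
      refine (atImInfty_mem _).2 ⟨max Y 0 + 1, fun τ hτ => ?_⟩
      have hτ' : max Y 0 < (τ : ℂ).im := by rw [UpperHalfPlane.coe_im]; linarith
      show f (A • τ) = _
      simp only [f, coe_smul_eq_act, Pi.pow_apply]
      rw [← hGeq _ hτ']
      rfl)
    refine ⟨x, hx, (heH.multiplier_cusp hn hrootH A hx ⟨_, hmem⟩ rfl).1,
      (heH.map_cusp_eq_one_iff hn hrootH A hx ⟨_, hmem⟩ rfl).1 (hpe _ ?_)⟩
    refine le_of_eq ?_
    rw [Matrix.SpecialLinearGroup.coe_mul, Matrix.SpecialLinearGroup.coe_mul,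
      Matrix.trace_mul_cycle, ← Matrix.SpecialLinearGroup.coe_mul, inv_mul_cancel,
      Matrix.SpecialLinearGroup.coe_one, one_mul, ModularGroup.coe_T_zpow, Matrix.trace_fin_two]
    norm_num

end Fermat.Agent.Multiplier
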