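/-
Roots and multipliers for `Γ₀(N)`: modular functions.
-/
import Fermat.Agent.Multiplier.Bridge

set_option autoImplicit false

open scoped MatrixGroups Topology
open UpperHalfPlane Filter Fermat.Agent.ModFun CongruenceSubgroup

namespace Fermat.Agent.Multiplier

/-- A function `q ^ k · (analytic in q)` has a `q`-expansion. -/
theorem exists_hasQExp_of_zpow_mul {h : ℕ} [NeZero h] {f : ℍ → ℂ} {G : ℂ → ℂ} (k : ℤ)
    (hG : AnalyticAt ℂ G 0)
    (hf : ∀ᶠ τ : ℍ in atImInfty,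
      f τ = Function.Periodic.qParam (h : ℝ) τ ^ k * G (Function.Periodic.qParam (h : ℝ) τ)) :
    ∃ x, HasQExp h f x := by
  obtain ⟨y, hy⟩ := exists_hasQExp_of_analyticAt (h := h)
    (f := fun τ : ℍ => G (Function.Periodic.qParam (h : ℝ) τ)) hG
    (Eventually.of_forall fun _ => rfl)
  refine ⟨HahnSeries.single k 1 * y, ?_⟩
  filter_upwards [hy, hf] with τ h1 h2
  rw [h2]
  have hq : Function.Periodic.qParam (h : ℝ) (τ : ℂ) ≠ 0 := Complex.exp_ne_zero _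
  have h3 := (h1.mul_left (Function.Periodic.qParam (h : ℝ) (τ : ℂ) ^ k))
  refine ((Equiv.subRight k).hasSum_iff.2 h3).congr_fun fun i => ?_
  simp only [Function.comp_apply, Equiv.subRight_apply, HahnSeries.coeff_single_mul, one_mul]
  rw [mul_left_comm, ← zpow_add₀ hq, add_sub_cancel]

theorem conj_T_pow_mem_Gamma0 (N : ℕ) (A : SL(2, ℤ)) :
    A * ModularGroup.T ^ (N : ℤ) * A⁻¹ ∈ Gamma0 N := by
  rw [Gamma0_mem]
  simp only [Matrix.SpecialLinearGroup.coe_mul, Matrix.SpecialLinearGroup.coe_inv,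
    ModularGroup.coe_T_zpow, Matrix.adjugate_fin_two, Matrix.mul_apply, Fin.sum_univ_two]
  simp only [Matrix.of_apply, Matrix.cons_val_zero, Matrix.cons_val_one, Matrix.cons_val',
    Matrix.cons_val_fin_one]
  push_cast
  rw [ZMod.natCast_self]
  ring

/-- (iv): a character of `Γ₀(N)` killing parabolic and elliptic elements is the multiplier of a
root of a modular function with divisible orders. -/
theorem exists_rootH_of_character_Gamma0 {N : ℕ} [NeZero N] (hneg : (-1 : SL(2, ℤ)) ∈ Gamma0 N)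
    (χ : Gamma0 N →* ℂˣ) {n : ℕ} (hn : 0 < n) (hχ : ∀ γ, χ γ ^ n = 1)
    (hpe : ∀ γ : Gamma0 N,
      ((γ : SL(2, ℤ)) : Matrix (Fin 2) (Fin 2) ℤ).trace ^ 2 ≤ 4 → χ γ = 1) :
    ∃ f g : ℍ → ℂ, IsModularFun N f ∧ IsRootH n f g ∧ IsEquivariantH (Gamma0 N) χ g ∧
      (∀ τ : ℍ, ordH f τ ≠ ⊤) ∧
      (∀ τ : ℍ, ∃ k : ℤ,
        ordH f τ = ((n * (Places.ellPeriod (Gamma0 N) τ * k) : ℤ) : WithTop ℤ)) ∧
      ∀ A : SL(2, ℤ), ∀ h : ℕ, 0 < h → A * ModularGroup.T ^ (h : ℤ) * A⁻¹ ∈ Gamma0 N →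
        ∃ x, HasQExp h (fun τ => f (A • τ)) x ∧ x ≠ 0 ∧ (n : ℤ) ∣ x.order := by
  obtain ⟨f, g, hg, he, hf, hinv, hord, hcusp⟩ :=
    exists_rootH_of_character (Gamma0 N) hneg χ hn hχ hpe
  refine ⟨f, g, ⟨hf, hinv, fun A => ?_⟩, hg, he, fun τ => ?_, hord, hcusp⟩
  · obtain ⟨x, hx, -, -⟩ := hcusp A N (NeZero.pos N) (conj_T_pow_mem_Gamma0 N A)
    exact ⟨x, hx⟩
  · obtain ⟨k, hk⟩ := hord τ
    rw [hk]
    exact WithTop.coe_ne_top

/-- (v): a root with trivial multiplier of a modular function is a modular function. -/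
theorem IsRootH.isModularFun {N : ℕ} [NeZero N] {n : ℕ} (hn : 0 < n) {f g : ℍ → ℂ}
    (hf : IsModularFun N f) (hg : IsRootH n f g)
    (hinv : ∀ γ ∈ Gamma0 N, ∀ τ : ℍ, g (γ • τ) = g τ) : IsModularFun N g := by
  refine ⟨hg.meroH, hinv, fun A => ?_⟩
  obtain ⟨x, hx⟩ := hf.cusps A
  have he : IsEquivariantH (Gamma0 N) 1 g := fun γ τ => by
    rw [MonoidHom.one_apply, Units.val_one, one_mul, hinv _ γ.2]
  obtain ⟨hx0, -⟩ := he.multiplier_cusp hn hg A hx ⟨_, conj_T_pow_mem_Gamma0 N A⟩ rfl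
  obtain ⟨d, hd⟩ := (he.map_cusp_eq_one_iff hn hg A hx ⟨_, conj_T_pow_mem_Gamma0 N A⟩ rfl).1
    (MonoidHom.one_apply _)
  obtain ⟨G, hG, ⟨Y, hY⟩, hord⟩ := exists_meromorphicAt_of_hasQExp hx
  have hroot : IsRoot n ((f ∘ ofComplex) ∘ act A) ((g ∘ ofComplex) ∘ act A) :=
    IsRoot.comp_act hg A
  have hh : (0 : ℝ) < (N : ℕ) := Nat.cast_pos.2 (NeZero.pos N)
  have hY' : ∀ z : ℂ, max Y 0 < z.im →
      ((f ∘ ofComplex) ∘ act A) z = G (Function.Periodic.qParam (N : ℝ) z) := by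
    intro z hz
    have hzH : z ∈ H := lt_of_le_of_lt (le_max_right _ _) hz
    simp only [Function.comp_apply, ofComplex_act _ hzH]
    rw [ofComplex_apply_of_im_pos hzH]
    exact hY ⟨z, hzH⟩ (lt_of_le_of_lt (le_max_left _ _) hz)
  obtain ⟨k, hk, v, hv, -, Y', hg'⟩ := hroot.eventually_eq_at_infty hn hh hG hY'
  rw [hord hx0, hd, WithTop.coe_eq_coe] at hk
  refine exists_hasQExp_of_zpow_mul d hv ((atImInfty_mem _).2 ⟨max Y' 0 + 1, fun τ hτ => ?_⟩)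
  have h1 := hg' τ (by rw [UpperHalfPlane.coe_im]; linarith [le_max_left Y' 0])
  simp only [Function.comp_apply, ofComplex_act _ τ.coe_im_pos, ofComplex_apply] at h1
  show g (A • τ) = _
  rw [h1, ← hk, zpow_mul, zpow_natCast, qParam_natCast_mul_pow hn]

end Fermat.Agent.Multiplier
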